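import Fermat.Agent.Lib.EC.Quadratic

/-!
helper2 (P-ELL block B, `FrobCharEq`).  The formal heart of the characteristic equation of
Frobenius: a quadratic form `h` on an abelian group `G`, an endomorphism `Φ` scaling `h` by `l`,
a point `Q` of height one, and multiplicativity of `h` under "composition" force
`h (Φ² Q - a Φ Q + l Q) = 0`, where `a` is defined by `h (Φ Q - Q) = l + 1 - a`.
-/

set_option autoImplicit false

namespace Fermat.Agent.Lib.EC.FrobCharEq

open Fermat.Agent.Lib.EC.Quadratic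

variable {G : Type*} [AddCommGroup G] {h : G → ℤ}

theorem bil_map_map (Φ : G →+ G)
    (l : ℤ) (hΦ : ∀ P, h (Φ P) = l * h P) (P R : G) : bil h (Φ P) (Φ R) = l * bil h P R := by
  rw [bil, bil, ← map_add, hΦ, hΦ, hΦ]
  ring

/-- **Abstract characteristic equation.** -/
theorem height_charEq_eq_zero (hpar : ∀ P Q, h (P + Q) + h (P - Q) = 2 * h P + 2 * h Q)
    (Φ : G →+ G) (l : ℤ) (hΦ : ∀ P, h (Φ P) = l * h P) (Q : G) (hQ : h Q = 1)
    (comp : ∀ u v u' v' : ℤ,
      h (u • (u' • Q + v' • Φ Q) + v • Φ (u' • Q + v' • Φ Q)) =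
        h (u • Q + v • Φ Q) * h (u' • Q + v' • Φ Q))
    (a : ℤ) (ha : h (Φ Q - Q) = l + 1 - a) :
    h (Φ (Φ Q) - a • Φ Q + l • Q) = 0 := by
  have hΦQ : h (Φ Q) = l := by rw [hΦ, hQ, mul_one]
  have hΦΦQ : h (Φ (Φ Q)) = l * l := by rw [hΦ, hΦQ]
  -- the three Gram entries
  have hB1 : bil h Q (Φ Q) = a := by
    have := zsmul_add_zsmul hpar (-1) 1 Q (Φ Q)
    rw [neg_one_zsmul, one_zsmul, neg_add_eq_sub, ha, hQ, hΦQ] at this
    linarith
  have hB2 : bil h (Φ Q) (Φ (Φ Q)) = l * a := by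
    rw [bil_map_map Φ l hΦ, hB1]
  set b := bil h Q (Φ (Φ Q)) with hb
  have hgen : ∀ u v w : ℤ, h (u • Q + v • Φ Q + w • Φ (Φ Q)) =
      u ^ 2 + v ^ 2 * l + w ^ 2 * (l * l) + u * v * a + u * w * b + v * w * (l * a) := by
    intro u v w
    rw [zsmul_three hpar, hQ, hΦQ, hΦΦQ, hB1, hB2]
    ring
  have h2 : ∀ u v : ℤ, h (u • Q + v • Φ Q) = u ^ 2 + u * v * a + v ^ 2 * l := by
    intro u v
    rw [zsmul_add_zsmul hpar, hQ, hΦQ, hB1]
    ring
  -- multiplicativity for (n + Φ) ∘ (-(a+n) + Φ)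
  have key : ∀ n : ℤ, (n * (n + a)) * (a ^ 2 - b) = 2 * (n * (n + a)) * l := by
    intro n
    have hc := comp n 1 (-(a + n)) 1
    rw [h2, h2] at hc
    have hL : n • ((-(a + n)) • Q + (1 : ℤ) • Φ Q) + (1 : ℤ) • Φ ((-(a + n)) • Q + (1 : ℤ) • Φ Q)
        = (-(n * (n + a))) • Q + (-a) • Φ Q + (1 : ℤ) • Φ (Φ Q) := by
      simp only [map_add, map_zsmul]
      module
    rw [hL, hgen] at hc
    linear_combination hc
  have hb' : b = a ^ 2 - 2 * l := by
    by_cases ha1 : a = -1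
    · have := key 2
      rw [ha1] at this ⊢
      have h2' : (2 : ℤ) * (2 + -1) ≠ 0 := by norm_num
      have := mul_left_cancel₀ h2' (by linear_combination this :
        (2 * (2 + -1) : ℤ) * ((-1) ^ 2 - b) = (2 * (2 + -1)) * (2 * l))
      linarith
    · have := key 1
      have h1' : (1 : ℤ) * (1 + a) ≠ 0 := by
        intro h0
        apply ha1
        linarith
      have := mul_left_cancel₀ h1' (by linear_combination this :
        (1 * (1 + a) : ℤ) * (a ^ 2 - b) = (1 * (1 + a)) * (2 * l))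
      linarith
  have hfin : Φ (Φ Q) - a • Φ Q + l • Q = l • Q + (-a) • Φ Q + (1 : ℤ) • Φ (Φ Q) := by
    rw [one_zsmul, neg_smul]; abel
  rw [hfin, hgen, hb']
  ring

end Fermat.Agent.Lib.EC.FrobCharEq
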