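import Mathlib
import Fermat.Prelude.Def_FLTPrelim_Modularity

/-!
helper4, for helper2's point count (N) in `Lib/EC/FrobCharEq`.

`F` a finite field with `q` elements, `W` a Weierstrass curve over `F`, `k` a field which is an
`F`-algebra and `φ := Point.map (FiniteField.frobeniusAlgHom F k)` the `q`-Frobenius on the points
of `W` over `k`.  Then the points fixed by `φ` are exactly the `F`-rational points:

* `pow_card_eq_self_iff` : `x ^ q = x ↔ x ∈ range (algebraMap F k)`;
* `frobPoint_some` : `φ (x, y) = (x ^ q, y ^ q)`;
* `frobPoint_eq_self_iff_mem_range` : `φ T = T ↔ T ∈ range (Point.baseChange F k)`;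
* `frobPoint_some_eq_self_iff` : `φ (x, y) = (x, y) ↔ x ^ q = x ∧ y ^ q = y`;
* `card_fixed_frobPoint` : `Nat.card {T // φ T = T} = Nat.card W.toAffine.Point`
  (`= W.card` of the Prelude, `card_fixed_frobPoint'`);
* `ZMod` specialisations `zmod_*` with `q = l`.
-/

set_option autoImplicit false
open Polynomial WeierstrassCurve WeierstrassCurve.Affine

namespace Fermat.Agent.Lib.EC.FrobCharEq

section Field

variable {F : Type*} [Field F] [Fintype F] {k : Type*} [Field k] [Algebra F k]

theorem algebraMap_pow_card (a : F) :
    (algebraMap F k a) ^ Fintype.card F = algebraMap F k a := by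
  rw [← map_pow, FiniteField.pow_card]

/-- The elements of `k` fixed by the `q`-power map are exactly the elements of `F`. -/
theorem pow_card_eq_self_iff (x : k) :
    x ^ Fintype.card F = x ↔ x ∈ Set.range (algebraMap F k) := by
  classical
  constructor
  · intro hx
    have hq : 1 < Fintype.card F := Fintype.one_lt_card
    set P : k[X] := X ^ Fintype.card F - X with hP
    have hP0 : P ≠ 0 := FiniteField.X_pow_card_sub_X_ne_zero k hq
    have hinj : Function.Injective (algebraMap F k) := (algebraMap F k).injective
    set S : Finset k := Finset.univ.image (algebraMap F k) with hS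
    have hSsub : S.val ≤ P.roots := by
      rw [Multiset.le_iff_subset S.nodup]
      intro y hy
      rw [Finset.mem_val, hS, Finset.mem_image] at hy
      obtain ⟨a, -, rfl⟩ := hy
      rw [mem_roots hP0, IsRoot.def, hP, eval_sub, eval_pow, eval_X, algebraMap_pow_card, sub_self]
    have hcard : S.card = Fintype.card F := by
      rw [hS, Finset.card_image_of_injective _ hinj, Finset.card_univ]
    have hroots : P.roots.card ≤ Fintype.card F := by
      refine (card_roots' P).trans ?_
      rw [hP, FiniteField.X_pow_card_sub_X_natDegree_eq k hq]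
    have heq : S.val = P.roots := by
      apply Multiset.eq_of_le_of_card_le hSsub
      rw [Finset.card_val, hcard]
      exact hroots
    have hxroot : x ∈ P.roots := by
      rw [mem_roots hP0, IsRoot.def, hP, eval_sub, eval_pow, eval_X, hx, sub_self]
    rw [← heq, Finset.mem_val, hS, Finset.mem_image] at hxroot
    obtain ⟨a, -, rfl⟩ := hxroot
    exact ⟨a, rfl⟩
  · rintro ⟨a, rfl⟩
    exact algebraMap_pow_card a

end Field

section Points

variable {F : Type*} [Field F] [Fintype F] (W : WeierstrassCurve F)
  (k : Type*) [Field k] [DecidableEq k] [Algebra F k]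

/-- The `q`-Frobenius endomorphism of the group of `k`-points of a curve defined over `F`. -/
noncomputable abbrev frobPoint : (W⁄k).Point →+ (W⁄k).Point :=
  Point.map (W' := W) (FiniteField.frobeniusAlgHom F k)

variable {k}

theorem frobPoint_zero : frobPoint W k 0 = 0 := rfl

theorem frobPoint_some {x y : k} (h : (W⁄k).Nonsingular x y) :
    frobPoint W k (.some x y h) = .some (x ^ Fintype.card F) (y ^ Fintype.card F)
      ((W.toAffine.baseChange_nonsingular (FiniteField.frobeniusAlgHom F k).injective ..).mpr h) :=
  rfl

theorem frobPoint_some_eq_self_iff {x y : k} (h : (W⁄k).Nonsingular x y) :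
    frobPoint W k (.some x y h) = .some x y h ↔
      x ^ Fintype.card F = x ∧ y ^ Fintype.card F = y := by
  constructor
  · intro hT
    rw [frobPoint_some] at hT
    exact Point.some.inj hT
  · rintro ⟨hx, hy⟩
    have key : ∀ (x' y' : k) (h' : (W⁄k).Nonsingular x' y'), x' = x → y' = y →
        Point.some x' y' h' = Point.some x y h := by
      rintro x' y' h' rfl rfl; rfl
    rw [frobPoint_some]
    exact key _ _ _ hx hy

variable [DecidableEq F]

theorem frobPoint_baseChange (P : (W⁄F).Point) :
    frobPoint W k (Point.baseChange F k P) = Point.baseChange F k P :=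
  Point.map_baseChange (W' := W) (FiniteField.frobeniusAlgHom F k) P

/-- The points fixed by Frobenius are exactly the `F`-rational points. -/
theorem frobPoint_eq_self_iff_mem_range (T : (W⁄k).Point) :
    frobPoint W k T = T ↔ T ∈ Set.range (Point.baseChange (W' := W) F k) := by
  constructor
  · intro hT
    rcases T with _ | ⟨x, y, h⟩
    · exact ⟨0, rfl⟩
    · rw [frobPoint_some_eq_self_iff] at hT
      obtain ⟨a, rfl⟩ := (pow_card_eq_self_iff (F := F) x).1 hT.1
      obtain ⟨b, rfl⟩ := (pow_card_eq_self_iff (F := F) y).1 hT.2
      have h' : (W⁄F).Nonsingular a b :=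
        (W.toAffine.baseChange_nonsingular (f := Algebra.ofId F k) (Algebra.ofId F k).injective a b).1 h
      exact ⟨.some a b h', rfl⟩
  · rintro ⟨P, rfl⟩
    exact frobPoint_baseChange W P

omit [DecidableEq F] in
theorem frobPoint_some_eq_self_iff_mem_range {x y : k} (h : (W⁄k).Nonsingular x y) :
    frobPoint W k (.some x y h) = .some x y h ↔
      x ∈ Set.range (algebraMap F k) ∧ y ∈ Set.range (algebraMap F k) := by
  rw [frobPoint_some_eq_self_iff, pow_card_eq_self_iff, pow_card_eq_self_iff]

variable (k)

/-- The `F`-rational points, as the fixed points of Frobenius. -/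
noncomputable def fixedEquiv :
    W.toAffine.Point ≃ {T : (W⁄k).Point // frobPoint W k T = T} :=
  (Equiv.ofInjective (Point.baseChange (W' := W) F k)
    (Point.map_injective (W' := W) (Algebra.ofId F k))).trans
    (Equiv.subtypeEquivRight fun T => (frobPoint_eq_self_iff_mem_range W T).symm)

theorem fixedEquiv_apply (P : W.toAffine.Point) :
    (fixedEquiv W k P : (W⁄k).Point) = Point.baseChange (W' := W) F k P := rfl

/-- The number of points fixed by Frobenius is the number of `F`-rational points. -/
theorem card_fixed_frobPoint :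
    Nat.card {T : (W⁄k).Point // frobPoint W k T = T} = Nat.card W.toAffine.Point :=
  (Nat.card_congr (fixedEquiv W k)).symm

theorem card_fixed_frobPoint' :
    Nat.card {T : (W⁄k).Point // frobPoint W k T = T} = W.card :=
  card_fixed_frobPoint W k

end Points

section ZMod

variable {l : ℕ} [Fact l.Prime] (W : WeierstrassCurve (ZMod l))
  {k : Type*} [Field k] [DecidableEq k] [Algebra (ZMod l) k]

omit [DecidableEq k] in
theorem zmod_pow_eq_self_iff (x : k) :
    x ^ l = x ↔ x ∈ Set.range (algebraMap (ZMod l) k) := by
  have := pow_card_eq_self_iff (F := ZMod l) x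
  rwa [ZMod.card] at this

theorem zmod_frobPoint_some {x y : k} (h : (W⁄k).Nonsingular x y) :
    ∃ h' : (W⁄k).Nonsingular (x ^ l) (y ^ l),
      frobPoint W k (.some x y h) = .some (x ^ l) (y ^ l) h' := by
  have key : ∀ (n : ℕ) (hn : (W⁄k).Nonsingular (x ^ n) (y ^ n)), n = l →
      ∃ h' : (W⁄k).Nonsingular (x ^ l) (y ^ l),
        Point.some (x ^ n) (y ^ n) hn = .some (x ^ l) (y ^ l) h' := by
    rintro n hn rfl
    exact ⟨hn, rfl⟩
  rw [frobPoint_some]
  exact key _ _ (ZMod.card l)

theorem zmod_frobPoint_some_eq_self_iff {x y : k} (h : (W⁄k).Nonsingular x y) :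
    frobPoint W k (.some x y h) = .some x y h ↔ x ^ l = x ∧ y ^ l = y := by
  rw [frobPoint_some_eq_self_iff, ZMod.card]

theorem zmod_card_fixed_frobPoint :
    Nat.card {T : (W⁄k).Point // frobPoint W k T = T} = Nat.card W.toAffine.Point :=
  card_fixed_frobPoint W k

end ZMod

end Fermat.Agent.Lib.EC.FrobCharEq
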