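import Fermat.Agent.Lib.EC.FrobCharEq.PolyCore

/-!
helper4, for helper2's point count (N) in `Lib/EC/FrobCharEq`.

* `frob_addSub_degrees` : degree bookkeeping for the numerators / denominators of
  `x (P + φ P)` and `x (P - φ P)` (`φ` = the `l`-Frobenius) from the add-sub identity.
* `frob_denom_roots` : the roots of the denominators are in the prime field, with
  multiplicities adding up to `2`.
-/

set_option autoImplicit false
open Polynomial

namespace Fermat.Agent.Lib.EC.FrobCharEq

section Degrees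

variable {k : Type*} [Field k]

theorem sym2_frob (l : ℕ) :
    sym2 ((X : k[X]) ^ l) 1 X 1 = ![X ^ (l + 1), X ^ l + X, 1] := by
  funext j
  fin_cases j <;> simp [sym2, pow_succ]

/-- `j = 2` component of the add-sub map at the Frobenius pair. -/
theorem asEval_frob_two (W : WeierstrassCurve k) (l : ℕ) :
    asEval W (sym2 ((X : k[X]) ^ l) 1 X 1) 2 = (X ^ l - X) ^ 2 := by
  rw [asEval_apply, sym2_frob]
  simp only [Matrix.cons_val_zero, Matrix.cons_val_one, Matrix.cons_val_two, Fin.isValue,
    Matrix.head_cons, Matrix.tail_cons]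
  ring

/-- `j = 0` component. -/
theorem asEval_frob_zero (W : WeierstrassCurve k) (l : ℕ) :
    asEval W (sym2 ((X : k[X]) ^ l) 1 X 1) 0 =
      X ^ (2 * l + 2) - C W.b₄ * X ^ (l + 1) - C W.b₆ * (X ^ l + X) - C W.b₈ := by
  rw [asEval_apply, sym2_frob]
  simp only [Matrix.cons_val_zero, Matrix.cons_val_one, Matrix.cons_val_two, Fin.isValue,
    Matrix.head_cons, Matrix.tail_cons]
  ring

/-- `j = 1` component. -/
theorem asEval_frob_one (W : WeierstrassCurve k) (l : ℕ) :
    asEval W (sym2 ((X : k[X]) ^ l) 1 X 1) 1 =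
      2 * (X ^ l + X) * X ^ (l + 1) + C W.b₂ * X ^ (l + 1) + C W.b₄ * (X ^ l + X) + C W.b₆ := by
  rw [asEval_apply, sym2_frob]
  simp only [Matrix.cons_val_zero, Matrix.cons_val_one, Matrix.cons_val_two, Fin.isValue,
    Matrix.head_cons, Matrix.tail_cons]
  ring

theorem natDegree_frob_sub {l : ℕ} (hl : 2 ≤ l) : ((X : k[X]) ^ l - X).natDegree = l := by
  have h1 : (X : k[X]).degree < ((X : k[X]) ^ l).degree := by
    rw [degree_X_pow, degree_X]
    exact_mod_cast (by omega : 1 < l)
  rw [natDegree_eq_of_degree_eq (degree_sub_eq_left_of_degree_lt h1), natDegree_X_pow]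

theorem frob_sub_ne_zero {l : ℕ} (hl : 2 ≤ l) : ((X : k[X]) ^ l - X) ≠ 0 := by
  intro h
  have := natDegree_frob_sub (k := k) hl
  rw [h, natDegree_zero] at this
  omega

/-- The `j = 0` component is monic of degree `2 l + 2`. -/
theorem natDegree_asEval_frob_zero (W : WeierstrassCurve k) {l : ℕ} (hl : 2 ≤ l) :
    (asEval W (sym2 ((X : k[X]) ^ l) 1 X 1) 0).natDegree = 2 * l + 2 := by
  rw [asEval_frob_zero]
  have hXl : ((X : k[X]) ^ l + X).natDegree ≤ l := by
    refine (natDegree_add_le _ _).trans (max_le ?_ ?_)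
    · rw [natDegree_X_pow]
    · rw [natDegree_X]; omega
  have h1 : (C W.b₄ * (X : k[X]) ^ (l + 1)).natDegree < 2 * l + 2 := by
    refine lt_of_le_of_lt (natDegree_C_mul_le _ _) ?_
    rw [natDegree_X_pow]; omega
  have h2 : (C W.b₆ * ((X : k[X]) ^ l + X)).natDegree < 2 * l + 2 := by
    refine lt_of_le_of_lt (natDegree_C_mul_le _ _) ?_
    omega
  have h3 : (C W.b₈ : k[X]).natDegree < 2 * l + 2 := by
    rw [natDegree_C]; omega
  have e1 : ((X : k[X]) ^ (2 * l + 2) - C W.b₄ * X ^ (l + 1)).natDegree = 2 * l + 2 := by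
    rw [natDegree_sub_eq_left_of_natDegree_lt (by rw [natDegree_X_pow]; exact h1), natDegree_X_pow]
  have e2 : ((X : k[X]) ^ (2 * l + 2) - C W.b₄ * X ^ (l + 1) - C W.b₆ * (X ^ l + X)).natDegree
      = 2 * l + 2 := by
    rw [natDegree_sub_eq_left_of_natDegree_lt (by rw [e1]; exact h2), e1]
  rw [natDegree_sub_eq_left_of_natDegree_lt (by rw [e2]; exact h3), e2]

/-- The `j = 1` component has degree at most `2 l + 1`. -/
theorem natDegree_asEval_frob_one_le (W : WeierstrassCurve k) {l : ℕ} (hl : 2 ≤ l) :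
    (asEval W (sym2 ((X : k[X]) ^ l) 1 X 1) 1).natDegree ≤ 2 * l + 1 := by
  rw [asEval_frob_one]
  have hXl : ((X : k[X]) ^ l + X).natDegree ≤ l := by
    refine (natDegree_add_le _ _).trans (max_le ?_ ?_)
    · rw [natDegree_X_pow]
    · rw [natDegree_X]; omega
  have h0 : (2 * ((X : k[X]) ^ l + X) * X ^ (l + 1)).natDegree ≤ 2 * l + 1 := by
    refine natDegree_mul_le.trans ?_
    have : (2 * ((X : k[X]) ^ l + X)).natDegree ≤ l := by
      refine natDegree_mul_le.trans ?_
      have : (2 : k[X]).natDegree = 0 := natDegree_ofNat 2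
      omega
    rw [natDegree_X_pow]; omega
  have h1 : (C W.b₂ * (X : k[X]) ^ (l + 1)).natDegree ≤ 2 * l + 1 := by
    refine (natDegree_C_mul_le _ _).trans ?_
    rw [natDegree_X_pow]; omega
  have h2 : (C W.b₄ * ((X : k[X]) ^ l + X)).natDegree ≤ 2 * l + 1 := by
    refine (natDegree_C_mul_le _ _).trans ?_
    omega
  have h3 : (C W.b₆ : k[X]).natDegree ≤ 2 * l + 1 := by
    rw [natDegree_C]; omega
  refine (natDegree_add_le _ _).trans (max_le ?_ h3)
  refine (natDegree_add_le _ _).trans (max_le ?_ h2)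
  exact (natDegree_add_le _ _).trans (max_le h0 h1)

/-- Degree bookkeeping for `x (P ± φ P)`: the denominators multiply to `c (X ^ l - X) ^ 2`
and each numerator has degree exactly one more than its denominator. -/
theorem frob_addSub_degrees (W : WeierstrassCurve k) {l : ℕ} (hl : 2 ≤ l)
    {fp gp fm gm : k[X]} {c : k} (hc : c ≠ 0)
    (H : ∀ j, sym2 fp gp fm gm j = C c * asEval W (sym2 (X ^ l) 1 X 1) j) :
    gp * gm = C c * (X ^ l - X) ^ 2 ∧ fp.natDegree = gp.natDegree + 1 ∧
      fm.natDegree = gm.natDegree + 1 := by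
  have H0 : fp * fm = C c * asEval W (sym2 (X ^ l) 1 X 1) 0 := H 0
  have H1 : fp * gm + gp * fm = C c * asEval W (sym2 (X ^ l) 1 X 1) 1 := H 1
  have H2 : gp * gm = C c * (X ^ l - X) ^ 2 := by
    have := H 2
    rwa [asEval_frob_two, sym2_two] at this
  refine ⟨H2, ?_⟩
  -- degrees of the three right hand sides
  have d0 : (fp * fm).natDegree = 2 * l + 2 := by
    rw [H0, natDegree_C_mul hc, natDegree_asEval_frob_zero W hl]
  have d1 : (fp * gm + gp * fm).natDegree ≤ 2 * l + 1 := by
    rw [H1, natDegree_C_mul hc]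
    exact natDegree_asEval_frob_one_le W hl
  have d2 : (gp * gm).natDegree = 2 * l := by
    rw [H2, natDegree_C_mul hc, natDegree_pow, natDegree_frob_sub hl]
  -- non-vanishing
  have hff : fp * fm ≠ 0 := by
    intro h
    rw [h, natDegree_zero] at d0
    omega
  have hgg : gp * gm ≠ 0 := by
    intro h
    rw [h, natDegree_zero] at d2
    omega
  have hfp : fp ≠ 0 := left_ne_zero_of_mul hff
  have hfm : fm ≠ 0 := right_ne_zero_of_mul hff
  have hgp : gp ≠ 0 := left_ne_zero_of_mul hgg
  have hgm : gm ≠ 0 := right_ne_zero_of_mul hgg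
  rw [natDegree_mul hfp hfm] at d0
  rw [natDegree_mul hgp hgm] at d2
  have key1 : gp.natDegree + 1 ≤ fp.natDegree := by
    by_contra hlt
    have h1 : (fp * gm).natDegree < (gp * fm).natDegree := by
      rw [natDegree_mul hfp hgm, natDegree_mul hgp hfm]
      omega
    have := natDegree_add_eq_right_of_natDegree_lt h1
    rw [this, natDegree_mul hgp hfm] at d1
    omega
  have key2 : gm.natDegree + 1 ≤ fm.natDegree := by
    by_contra hlt
    have h1 : (gp * fm).natDegree < (fp * gm).natDegree := by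
      rw [natDegree_mul hfp hgm, natDegree_mul hgp hfm]
      omega
    have := natDegree_add_eq_left_of_natDegree_lt h1
    rw [this, natDegree_mul hfp hgm] at d1
    omega
  constructor <;> omega

end Degrees

section Roots

variable {k : Type*} [Field k] {l : ℕ} [Fact l.Prime] [Algebra (ZMod l) k]

theorem algebraMap_zmod_pow (α : ZMod l) :
    (algebraMap (ZMod l) k α) ^ l = algebraMap (ZMod l) k α := by
  rw [← map_pow, ZMod.pow_card]

theorem isRoot_frob_sub (α : ZMod l) :
    ((X : k[X]) ^ l - X).IsRoot (algebraMap (ZMod l) k α) := by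
  rw [IsRoot.def, eval_sub, eval_pow, eval_X, algebraMap_zmod_pow, sub_self]

/-- The elements of `k` fixed by the `l`-power map are those of the prime field. -/
theorem exists_algebraMap_of_pow_eq {x : k} (hx : x ^ l = x) :
    ∃ α : ZMod l, x = algebraMap (ZMod l) k α := by
  classical
  have hl : 2 ≤ l := (Fact.out : l.Prime).two_le
  -- the `l` distinct roots `algebraMap α` exhaust the roots of `X ^ l - X`
  set P : k[X] := X ^ l - X with hP
  have hP0 : P ≠ 0 := frob_sub_ne_zero hl
  have hinj : Function.Injective (algebraMap (ZMod l) k) := (algebraMap (ZMod l) k).injective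
  set S : Finset k := Finset.univ.image (algebraMap (ZMod l) k) with hS
  have hSsub : S.val ≤ P.roots := by
    rw [Multiset.le_iff_subset S.nodup]
    intro y hy
    rw [Finset.mem_val, hS, Finset.mem_image] at hy
    obtain ⟨α, -, rfl⟩ := hy
    exact (mem_roots hP0).2 (isRoot_frob_sub α)
  have hcard : S.card = l := by
    rw [hS, Finset.card_image_of_injective _ hinj, Finset.card_univ, ZMod.card]
  have hroots : P.roots.card ≤ l := by
    refine (card_roots' P).trans ?_
    rw [hP, natDegree_frob_sub hl]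
  have heq : S.val = P.roots := by
    apply Multiset.eq_of_le_of_card_le hSsub
    rw [Finset.card_val, hcard]
    exact hroots
  have hxroot : x ∈ P.roots := by
    rw [mem_roots hP0, IsRoot.def, hP, eval_sub, eval_pow, eval_X, hx, sub_self]
  rw [← heq, Finset.mem_val, hS, Finset.mem_image] at hxroot
  obtain ⟨α, -, rfl⟩ := hxroot
  exact ⟨α, rfl⟩

theorem rootMultiplicity_frob_sub (α : ZMod l) :
    ((X : k[X]) ^ l - X).rootMultiplicity (algebraMap (ZMod l) k α) = 1 := by
  have hl : 2 ≤ l := (Fact.out : l.Prime).two_le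
  have : CharP k l := charP_of_injective_algebraMap (algebraMap (ZMod l) k).injective l
  have hsep : ((X : k[X]) ^ l - X).Separable := galois_poly_separable l l dvd_rfl
  apply le_antisymm (rootMultiplicity_le_one_of_separable hsep _)
  exact (rootMultiplicity_pos (frob_sub_ne_zero hl)).2 (isRoot_frob_sub α)

/-- The roots of the denominators of `x (P ± φ P)` lie in the prime field, with
multiplicities adding up to `2` at every element of the prime field. -/
theorem frob_denom_roots {gp gm : k[X]} {c : k} (hc : c ≠ 0)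
    (H : gp * gm = C c * (X ^ l - X) ^ 2) :
    (∀ α : ZMod l, gp.rootMultiplicity (algebraMap (ZMod l) k α) +
        gm.rootMultiplicity (algebraMap (ZMod l) k α) = 2) ∧
      gm.natDegree = ∑ α : ZMod l, gm.rootMultiplicity (algebraMap (ZMod l) k α) ∧
      (∀ x : k, gm.IsRoot x → ∃ α : ZMod l, x = algebraMap (ZMod l) k α) := by
  classical
  have hl : 2 ≤ l := (Fact.out : l.Prime).two_le
  have hP0 : ((X : k[X]) ^ l - X) ≠ 0 := frob_sub_ne_zero hl
  have hR0 : C c * ((X : k[X]) ^ l - X) ^ 2 ≠ 0 :=
    mul_ne_zero (C_ne_zero.2 hc) (pow_ne_zero 2 hP0)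
  have hgg : gp * gm ≠ 0 := by rw [H]; exact hR0
  have hgm : gm ≠ 0 := right_ne_zero_of_mul hgg
  have hinj : Function.Injective (algebraMap (ZMod l) k) := (algebraMap (ZMod l) k).injective
  -- (3)
  have h3 : ∀ x : k, gm.IsRoot x → ∃ α : ZMod l, x = algebraMap (ZMod l) k α := by
    intro x hx
    have h1 : (gp * gm).IsRoot x := by
      rw [IsRoot.def, eval_mul, hx.eq_zero, mul_zero]
    rw [H, IsRoot.def, eval_mul, eval_C, eval_pow, eval_sub, eval_pow, eval_X] at h1
    have h2 : x ^ l - x = 0 := by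
      rcases mul_eq_zero.1 h1 with h | h
      · exact absurd h hc
      · exact pow_eq_zero_iff (two_ne_zero) |>.1 h
    exact exists_algebraMap_of_pow_eq (sub_eq_zero.1 h2)
  refine ⟨?_, ?_, h3⟩
  · -- (1)
    intro α
    rw [← rootMultiplicity_mul hgg, H, rootMultiplicity_mul hR0, rootMultiplicity_C, zero_add,
      pow_two, rootMultiplicity_mul (mul_ne_zero hP0 hP0), rootMultiplicity_frob_sub]
  · -- (2)
    have hsplitP : ((X : k[X]) ^ l - X).Splits := by
      have h0 : (X ^ l - X : (ZMod l)[X]).Splits := GaloisField.splits_zmod_X_pow_sub_X l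
      have := h0.map (algebraMap (ZMod l) k)
      simpa using this
    have hsplitR : (C c * ((X : k[X]) ^ l - X) ^ 2).Splits := (hsplitP.pow 2).C_mul c
    have hsplit : gm.Splits := hsplitR.of_dvd hR0 ⟨gp, by rw [← H, mul_comm]⟩
    rw [hsplit.natDegree_eq_card_roots]
    have hmem : ∀ a ∈ gm.roots, a ∈ Finset.univ.image (algebraMap (ZMod l) k) := by
      intro a ha
      obtain ⟨α, rfl⟩ := h3 a ((mem_roots hgm).1 ha)
      exact Finset.mem_image_of_mem _ (Finset.mem_univ α)
    rw [← Multiset.sum_count_eq_card hmem, Finset.sum_image (fun a _ b _ h => hinj h)]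
    apply Finset.sum_congr rfl
    intro α _
    rw [count_roots]

end Roots

end Fermat.Agent.Lib.EC.FrobCharEq
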