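import Fermat.Agent.Lib.EC.FrobCharEq.Rep
import Fermat.Agent.Lib.EC.FrobCharEq.FrobPoly
import Fermat.Agent.Lib.EC.FrobCharEq.FrobFixed

/-!
helper2 (P-ELL block B, `FrobCharEq`).  The point count (N): for the generic point `Q = (ι X, y)` of
an elliptic curve `W` over `ZMod l`, over a function field `K` of `W` over an algebraically closed
`k` (abstractly: `ι : k(X) → K`, places centred at every point of `W(k)`), the height of
`Φ Q - Q` is the number of `ZMod l`-rational points of `W`:
`pairDeg_eq_card : pairDeg fm gm = Nat.card W.toAffine.Point` for any representative `(fm, gm)` of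
`Φ Q - Q`.  Also the pole criterion `isRoot_denom_iff`.
-/

set_option autoImplicit false
set_option linter.unusedSectionVars false

namespace Fermat.Agent.Lib.EC.FrobCharEq

open Polynomial WeierstrassCurve WeierstrassCurve.Affine Fermat.Agent.Lib.EC

/-- base change of an elliptic curve is elliptic (local copy for a general base ring). -/
instance isElliptic_baseChange_of {R : Type*} [CommRing R] (W : WeierstrassCurve R) [W.IsElliptic]
    (A : Type*) [CommRing A] [Algebra R A] : (W⁄A).IsElliptic :=
  inferInstanceAs (W.map (algebraMap R A)).IsElliptic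

section Pole

variable {R : Type*} [CommRing R] (W : WeierstrassCurve R) [W.IsElliptic]
  {k K : Type*} [Field k] [Field K] [Algebra R k] [Algebra R K] [Algebra k K]
  [IsScalarTower R k K] [IsAlgClosed k] [DecidableEq k] [DecidableEq K]
  (ι : RatFunc k →ₐ[k] K)
  (H : Places.IsOneVar k K) (A : ValuationSubring K)
  (hk : ∀ c : k, algebraMap k K c ∈ A) (hA : A ≠ ⊤)

theorem polyEmb_eq_aeval (p : k[X]) : polyEmb ι p = aeval (ι RatFunc.X) p :=
  Places.algHom_algebraMap_polynomial ι p

include hk in
theorem valuation_polyEmb_le_one {x₀ : k} (hx₀ : ι RatFunc.X - algebraMap k K x₀ ∈ A.nonunits)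
    (p : k[X]) : A.valuation (polyEmb ι p) ≤ 1 := by
  have hx : ι RatFunc.X ∈ A := by
    have h1 : ι RatFunc.X - algebraMap k K x₀ ∈ A :=
      (A.valuation_le_one_iff _).1 (le_of_lt (A.mem_nonunits_iff.1 hx₀))
    have := add_mem h1 (hk x₀)
    simpa using this
  rw [polyEmb_eq_aeval]
  exact Places.valuation_aeval_le_one A hk hx p

include hk in
theorem valuation_polyEmb_eq_one {x₀ : k} (hx₀ : ι RatFunc.X - algebraMap k K x₀ ∈ A.nonunits)
    {p : k[X]} (hp : ¬ p.IsRoot x₀) : A.valuation (polyEmb ι p) = 1 := by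
  have hx : ι RatFunc.X ∈ A := by
    have h1 : ι RatFunc.X - algebraMap k K x₀ ∈ A :=
      (A.valuation_le_one_iff _).1 (le_of_lt (A.mem_nonunits_iff.1 hx₀))
    have := add_mem h1 (hk x₀)
    simpa using this
  rw [polyEmb_eq_aeval]
  exact Places.valuation_aeval_eq_one A hk hx hx₀ hp

include hk in
theorem valuation_polyEmb_lt_one {x₀ : k} (hx₀ : ι RatFunc.X - algebraMap k K x₀ ∈ A.nonunits)
    {p : k[X]} (hp : p.IsRoot x₀) : A.valuation (polyEmb ι p) < 1 := by
  obtain ⟨q, rfl⟩ := dvd_iff_isRoot.2 hp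
  rw [map_mul, map_mul]
  have h1 : polyEmb ι (X - C x₀) = ι RatFunc.X - algebraMap k K x₀ := by
    rw [map_sub, polyEmb_X, polyEmb_C]
  rw [h1]
  calc A.valuation (ι RatFunc.X - algebraMap k K x₀) * A.valuation (polyEmb ι q)
      ≤ A.valuation (ι RatFunc.X - algebraMap k K x₀) * 1 := by
        gcongr
        exact valuation_polyEmb_le_one ι A hk hx₀ q
    _ < 1 := by rw [mul_one]; exact A.mem_nonunits_iff.1 hx₀

/-- **Pole criterion**: the denominator of a representative of `D` vanishes at `x₀` iff `D`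
specialises to `0` at a place centred above `x₀`. -/
theorem isRoot_denom_iff {D : (W⁄K).Point} {f g : k[X]} (hD : IsRep W ι D f g) {x₀ : k}
    (hx₀ : ι RatFunc.X - algebraMap k K x₀ ∈ A.nonunits) :
    g.IsRoot x₀ ↔ specHom W H A hk hA D = 0 := by
  rw [specHom_eq_zero_iff]
  obtain ⟨hc, c, hc0, hx⟩ := hD
  rcases D with _ | ⟨x', y', h'⟩
  · have h1 := congrFun hx 1
    have h1' : (0 : K) = c * polyEmb ι g := by
      rw [show (Point.zero : (W⁄K).Point) = 0 from rfl, Point.xRep_zero] at h1
      simpa using h1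
    have hg : g = 0 := by
      apply polyEmb_injective ι
      rw [map_zero]
      exact (mul_eq_zero.1 h1'.symm).resolve_left hc0
    subst hg
    exact ⟨fun _ => trivial, fun _ => by simp [IsRoot]⟩
  · have h0 : x' = c * polyEmb ι f := by
      have := congrFun hx 0
      rw [Point.xRep_some] at this
      simpa using this
    have h1 : (1 : K) = c * polyEmb ι g := by
      have := congrFun hx 1
      rw [Point.xRep_some] at this
      simpa using this
    have hg0 : polyEmb ι g ≠ 0 := fun h => by rw [h, mul_zero] at h1; exact one_ne_zero h1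
    have hxe : x' = polyEmb ι f / polyEmb ι g := by
      rw [h0, eq_div_iff hg0, mul_assoc, mul_comm (polyEmb ι f), ← mul_assoc, ← h1, one_mul]
    show g.IsRoot x₀ ↔ x' ∉ A
    rw [← A.valuation_le_one_iff, hxe, map_div₀]
    have hvg0 : A.valuation (polyEmb ι g) ≠ 0 := (A.valuation.ne_zero_iff).2 hg0
    constructor
    · intro hg
      have hf : ¬ f.IsRoot x₀ := by
        intro hf
        obtain ⟨a, b, hab⟩ := hc
        have := congrArg (eval x₀) hab
        simp only [eval_add, eval_mul, eval_one] at this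
        rw [IsRoot.def] at hf hg
        rw [hf, hg] at this
        simp at this
      rw [valuation_polyEmb_eq_one ι A hk hx₀ hf, not_le, one_div]
      exact (one_lt_inv₀ (zero_lt_iff.2 hvg0)).2 (valuation_polyEmb_lt_one ι A hk hx₀ hg)
    · intro hnot
      by_contra hg
      apply hnot
      rw [valuation_polyEmb_eq_one ι A hk hx₀ hg, div_one]
      exact valuation_polyEmb_le_one ι A hk hx₀ f

end Pole

section Count

variable {l : ℕ} [Fact l.Prime] (W : WeierstrassCurve (ZMod l)) [W.IsElliptic]
  {k K : Type*} [Field k] [Field K] [Algebra (ZMod l) k] [Algebra (ZMod l) K] [Algebra k K]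
  [IsScalarTower (ZMod l) k K] [IsAlgClosed k] [DecidableEq k] [DecidableEq K]
  (ι : RatFunc k →ₐ[k] K) (H : Places.IsOneVar k K)
  {y : K} (hgen : (W⁄K).Nonsingular (ι RatFunc.X) y)
  (center : ∀ x₀ y₀ : k, (W⁄k).Nonsingular x₀ y₀ → ∃ A : ValuationSubring K,
    (∀ c : k, algebraMap k K c ∈ A) ∧ ι RatFunc.X - algebraMap k K x₀ ∈ A.nonunits ∧
      y - algebraMap k K y₀ ∈ A.nonunits)

omit [DecidableEq k] in
/-- over an algebraically closed field there is a point above every `x₀`. -/
theorem exists_nonsingular (x₀ : k) : ∃ y₀ : k, (W⁄k).Nonsingular x₀ y₀ := by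
  set b : k := (W⁄k).a₁ * x₀ + (W⁄k).a₃ with hb
  set c : k := -(x₀ ^ 3 + (W⁄k).a₂ * x₀ ^ 2 + (W⁄k).a₄ * x₀ + (W⁄k).a₆) with hc
  have hdeg : (X ^ 2 + C b * X + C c : k[X]).degree ≠ 0 := by
    have : (X ^ 2 + C b * X + C c : k[X]).degree = 2 := by
      compute_degree!
    rw [this]; norm_num
  obtain ⟨y₀, hy₀⟩ := IsAlgClosed.exists_root _ hdeg
  refine ⟨y₀, (equation_iff_nonsingular (W := W⁄k)).1 ?_⟩
  rw [Affine.equation_iff]
  simp only [IsRoot.def, eval_add, eval_mul, eval_pow, eval_X, eval_C] at hy₀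
  rw [hb, hc] at hy₀
  linear_combination hy₀

theorem ιX_sub_ne_zero (x₀ : k) : ι RatFunc.X - algebraMap k K x₀ ≠ 0 := by
  rw [← polyEmb_X, ← polyEmb_C, ← map_sub]
  intro h
  exact X_sub_C_ne_zero x₀ (polyEmb_injective ι (by rw [h, map_zero]))

theorem isRep_gen : IsRep W ι (Point.some _ _ hgen) X 1 := by
  have := isRep_some (W := W) (ι := ι) hgen (r := RatFunc.X) rfl
  rwa [RatFunc.num_X, RatFunc.denom_X] at this

theorem isRep_frob_gen : IsRep W ι (frobPt W K (Point.some _ _ hgen)) (X ^ l) 1 := by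
  have := (isRep_gen W ι hgen).frobPt
  rwa [one_pow] at this

include center in
theorem spec_gen {x₀ y₀ : k} (h₀ : (W⁄k).Nonsingular x₀ y₀) :
    ∃ (A : ValuationSubring K) (hk : ∀ c : k, algebraMap k K c ∈ A) (hA : A ≠ ⊤),
      ι RatFunc.X - algebraMap k K x₀ ∈ A.nonunits ∧
      specHom W H A hk hA (Point.some _ _ hgen) = Point.some x₀ y₀ h₀ := by
  obtain ⟨A, hk, hx, hy⟩ := center x₀ y₀ h₀
  have hA : A ≠ ⊤ := Places.ne_top_of_mem_nonunits hx (ιX_sub_ne_zero ι x₀)
  exact ⟨A, hk, hA, hx, specHom_some W H A hk hA hgen hx hy h₀⟩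

include center H in
theorem isRoot_gm_iff {fm gm : k[X]}
    (hm : IsRep W ι (frobPt W K (Point.some _ _ hgen) - Point.some _ _ hgen) fm gm)
    {x₀ y₀ : k} (h₀ : (W⁄k).Nonsingular x₀ y₀) :
    gm.IsRoot x₀ ↔ frobPt W k (Point.some x₀ y₀ h₀) = Point.some x₀ y₀ h₀ := by
  obtain ⟨A, hk, hA, hx, hs⟩ := spec_gen W ι H hgen center h₀
  rw [isRoot_denom_iff W ι H A hk hA hm hx, map_sub, specHom_frobPt, hs, sub_eq_zero]

include center H in
theorem isRoot_gp_iff {fp gp : k[X]}
    (hp : IsRep W ι (frobPt W K (Point.some _ _ hgen) + Point.some _ _ hgen) fp gp)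
    {x₀ y₀ : k} (h₀ : (W⁄k).Nonsingular x₀ y₀) :
    gp.IsRoot x₀ ↔ frobPt W k (Point.some x₀ y₀ h₀) = -Point.some x₀ y₀ h₀ := by
  obtain ⟨A, hk, hA, hx, hs⟩ := spec_gen W ι H hgen center h₀
  rw [isRoot_denom_iff W ι H A hk hA hp hx, map_add, specHom_frobPt, hs, add_eq_zero_iff_eq_neg]

include center H in
/-- **Point count**: the height of `Φ Q - Q` (`Q` the generic point) is the number of rational
points of `W`. -/
theorem pairDeg_eq_card {fp gp fm gm : k[X]}
    (hp : IsRep W ι (frobPt W K (Point.some _ _ hgen) + Point.some _ _ hgen) fp gp)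
    (hm : IsRep W ι (frobPt W K (Point.some _ _ hgen) - Point.some _ _ hgen) fm gm) :
    pairDeg fm gm = Nat.card W.toAffine.Point := by
  classical
  have hl : 2 ≤ l := (Fact.out : l.Prime).two_le
  obtain ⟨⟨c, hc, Hc⟩, -⟩ := isRep_addSub (isRep_frob_gen W ι hgen) (isRep_gen W ι hgen) hp hm
  obtain ⟨Hgg, -, hfm⟩ := frob_addSub_degrees (W⁄k) hl hc Hc
  obtain ⟨hsum, hdeg, -⟩ := frob_denom_roots hc Hgg
  have hgg0 : gp * gm ≠ 0 := by
    rw [Hgg]
    exact mul_ne_zero (C_ne_zero.2 hc) (pow_ne_zero 2 (frob_sub_ne_zero hl))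
  have hgp0 : gp ≠ 0 := left_ne_zero_of_mul hgg0
  have hgm0 : gm ≠ 0 := right_ne_zero_of_mul hgg0
  have hpd : pairDeg fm gm = gm.natDegree + 1 := by
    rw [pairDeg, hfm]; omega
  rw [hpd, hdeg, ← zmod_card_fixed_frobPoint W (k := k)]
  choose yα hyα using fun α : ZMod l => exists_nonsingular W (algebraMap (ZMod l) k α)
  set Tα : ZMod l → (W⁄k).Point := fun α => Point.some _ _ (hyα α) with hTα
  set pair : ZMod l → Finset (W⁄k).Point := fun α => {Tα α, -Tα α} with hpair
  have hxRep : ∀ α, ∀ T ∈ pair α, T.xRep = ![algebraMap (ZMod l) k α, 1] := by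
    intro α T hT
    rw [hpair, Finset.mem_insert, Finset.mem_singleton] at hT
    rcases hT with rfl | rfl
    · exact Point.xRep_some _
    · rw [Point.xRep_neg]; exact Point.xRep_some _
  have hne0 : ∀ α, ∀ T ∈ pair α, T ≠ 0 := by
    intro α T hT h0
    have := hxRep α T hT
    rw [h0, Point.xRep_zero] at this
    have := congrFun this 1
    simp at this
  set B : Finset (W⁄k).Point := Finset.univ.biUnion pair with hB
  set S : Finset (W⁄k).Point := insert 0 (B.filter fun T => frobPoint W k T = T) with hS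
  have hSmem : ∀ T, T ∈ S ↔ frobPoint W k T = T := by
    intro T
    rw [hS, Finset.mem_insert, Finset.mem_filter]
    constructor
    · rintro (rfl | ⟨-, h⟩)
      · rfl
      · exact h
    · intro h
      rcases T with _ | ⟨x, y', hT⟩
      · left; rfl
      · right
        refine ⟨?_, h⟩
        have hx : x ^ l = x := ((zmod_frobPoint_some_eq_self_iff W hT).1 h).1
        obtain ⟨α, rfl⟩ := exists_algebraMap_of_pow_eq hx
        rw [hB, Finset.mem_biUnion]
        refine ⟨α, Finset.mem_univ _, ?_⟩
        have : (Point.some _ _ hT).xRep = (Tα α).xRep := by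
          rw [Point.xRep_some, hTα, Point.xRep_some]
        rcases Point.xRep_eq_xRep_iff.1 this with h1 | h1
        · rw [hpair, h1]; exact Finset.mem_insert_self _ _
        · rw [hpair, h1]; exact Finset.mem_insert_of_mem (Finset.mem_singleton_self _)
  have h0S : (0 : (W⁄k).Point) ∉ B.filter fun T => frobPoint W k T = T := by
    intro h
    rw [Finset.mem_filter, hB, Finset.mem_biUnion] at h
    obtain ⟨⟨α, -, hα⟩, -⟩ := h
    exact hne0 α 0 hα rfl
  rw [Nat.subtype_card S hSmem, hS, Finset.card_insert_of_notMem h0S]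
  congr 1
  rw [hB, Finset.filter_biUnion, Finset.card_biUnion]
  swap
  · intro α _ β _ hαβ
    show Disjoint _ _
    rw [Finset.disjoint_left]
    intro T hTα' hTβ
    apply hαβ
    have h1 := hxRep α T (Finset.mem_filter.1 hTα').1
    have h2 := hxRep β T (Finset.mem_filter.1 hTβ).1
    have := congrFun (h1.symm.trans h2) 0
    exact (algebraMap (ZMod l) k).injective (by simpa using this)
  apply Finset.sum_congr rfl
  intro α _
  have hgm := isRoot_gm_iff W ι H hgen center hm (hyα α)
  have hgp := isRoot_gp_iff W ι H hgen center hp (hyα α)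
  have hT : Tα α = Point.some _ _ (hyα α) := rfl
  rw [← hT] at hgm hgp
  have hfp : frobPoint W k (Tα α) = frobPt W k (Tα α) := rfl
  by_cases hfix : frobPt W k (Tα α) = Tα α
  · have hfix' : frobPt W k (-Tα α) = -Tα α := by rw [map_neg, hfix]
    have hfilt : (pair α).filter (fun T => frobPoint W k T = T) = pair α := by
      apply Finset.filter_true_of_mem
      intro T hT'
      rw [hpair, Finset.mem_insert, Finset.mem_singleton] at hT'
      rcases hT' with rfl | rfl
      · exact hfix
      · exact hfix'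
    rw [hfilt]
    have hm1 : 0 < gm.rootMultiplicity (algebraMap (ZMod l) k α) :=
      (rootMultiplicity_pos hgm0).2 (hgm.2 hfix)
    by_cases h2 : Tα α = -Tα α
    · have hp1 : 0 < gp.rootMultiplicity (algebraMap (ZMod l) k α) :=
        (rootMultiplicity_pos hgp0).2 (hgp.2 (hfix.trans h2))
      have hcard : (pair α).card = 1 := by
        rw [hpair]
        simp only
        rw [← h2, Finset.pair_eq_singleton, Finset.card_singleton]
      rw [hcard]
      have := hsum α
      omega
    · have hp0 : gp.rootMultiplicity (algebraMap (ZMod l) k α) = 0 := by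
        rw [rootMultiplicity_eq_zero]
        intro hr
        exact h2 (hfix.symm.trans (hgp.1 hr))
      have hcard : (pair α).card = 2 := Finset.card_pair h2
      rw [hcard]
      have := hsum α
      omega
  · have hfix' : frobPt W k (-Tα α) ≠ -Tα α := by
      rw [map_neg]
      intro h
      exact hfix (neg_injective h)
    have hfilt : (pair α).filter (fun T => frobPoint W k T = T) = ∅ := by
      apply Finset.filter_false_of_mem
      intro T hT'
      rw [hpair, Finset.mem_insert, Finset.mem_singleton] at hT'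
      rcases hT' with rfl | rfl
      · exact hfix
      · exact hfix'
    rw [hfilt, Finset.card_empty, rootMultiplicity_eq_zero]
    intro hr
    exact hfix (hgm.1 hr)

end Count

end Fermat.Agent.Lib.EC.FrobCharEq
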