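import Fermat.Agent.Lib.EC.FrobCharEq.Compose
import Fermat.Agent.Lib.EC.FrobCharEq.PointCount
import Fermat.Agent.Lib.EC.FrobCharEq.CharEqAbstract

/-!
helper2 (P-ELL block B, `FrobCharEq`).  The characteristic equation of Frobenius
`φ² - a φ + l = 0` on `W(k)`, `k` algebraically closed over `ZMod l`, `a = W.traceOfFrobenius`,
from ABSTRACT function-field data (`frob_charEq_of_data`): an embedding `ι : k(X) → K`, an
involution `σ` with fixed field `ι k(X)`, the generic point `(ι X, y)` (odd), places of `K`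
centred at every point of `W(k)`, and substitution endomorphisms of `K`.
Proof: Manin-style heights on the odd points (Rep), point count (PointCount), multiplicativity
under composition (Compose), the formal identity (CharEqAbstract), and specialisation (Spec).
-/

set_option autoImplicit false
set_option linter.unusedSectionVars false

namespace Fermat.Agent.Lib.EC.FrobCharEq

open Polynomial WeierstrassCurve WeierstrassCurve.Affine Fermat.Agent.Lib.EC
open Fermat.Agent.Lib.EC.Quadratic

section Semidefinite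

variable {G : Type*} [AddCommGroup G] {h : G → ℤ}

/-- For a positive semidefinite quadratic form, a vector of height zero is orthogonal to
everything. -/
theorem bil_eq_zero_of_nonneg (hpar : ∀ P Q, h (P + Q) + h (P - Q) = 2 * h P + 2 * h Q)
    (hnn : ∀ P, 0 ≤ h P) {P : G} (hP : h P = 0) (R : G) : bil h P R = 0 := by
  by_contra hB
  set B := bil h P R with hBdef
  have h1 := hnn ((-(h R + 1) * B) • P + (1 : ℤ) • R)
  rw [zsmul_add_zsmul hpar, hP, ← hBdef] at h1
  have hB2 : 0 < B ^ 2 := by positivity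
  have hR := hnn R
  nlinarith [mul_nonneg (by linarith : (0 : ℤ) ≤ h R + 1) (by linarith : (0 : ℤ) ≤ B ^ 2 - 1)]

end Semidefinite

section Main

open Parallelogram

variable {l : ℕ} [Fact l.Prime] (W : WeierstrassCurve (ZMod l)) [W.IsElliptic]
  {k K : Type*} [Field k] [Field K] [Algebra (ZMod l) k] [Algebra (ZMod l) K] [Algebra k K]
  [IsScalarTower (ZMod l) k K] [IsAlgClosed k] [DecidableEq k] [DecidableEq K]

omit [W.IsElliptic] [IsAlgClosed k] [DecidableEq k] in
theorem map_frobPt_comm (s : K →ₐ[k] K) (P : (W⁄K).Point) :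
    Point.map (W' := W) s (frobPt W K P) = frobPt W K (Point.map (W' := W) s P) := by
  rcases P with _ | ⟨x, y, h⟩
  · rfl
  · rw [frobPt_some, Point.map_some, Point.map_some, frobPt_some]
    exact some_congr _ (map_pow s x l) (map_pow s y l) _

variable (ι : RatFunc k →ₐ[k] K) (σ : K →ₐ[k] K) (hfix : ∀ a : K, σ a = a → a ∈ ι.range)
  (H : Places.IsOneVar k K) {y : K} (hgen : (W⁄K).Nonsingular (ι RatFunc.X) y)
  (hodd : Point.some _ _ hgen ∈ oddPoints W σ)
  (center : ∀ x₀ y₀ : k, (W⁄k).Nonsingular x₀ y₀ → ∃ A : ValuationSubring K,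
    (∀ c : k, algebraMap k K c ∈ A) ∧ ι RatFunc.X - algebraMap k K x₀ ∈ A.nonunits ∧
      y - algebraMap k K y₀ ∈ A.nonunits)
  (subst : ∀ (x' y' : K) (h' : (W⁄K).Nonsingular x' y'), Point.some x' y' h' ∈ oddPoints W σ →
    x' ∉ (algebraMap k K).range → ∃ s : K →ₐ[k] K, s (ι RatFunc.X) = x' ∧ s y = y')

/-- the generic point as an odd point -/
noncomputable def genOdd : oddPoints W σ := ⟨Point.some _ _ hgen, hodd⟩

include subst in
/-- multiplicativity of the height under composition of endomorphisms in `ℤ[Φ]`. -/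
theorem hgt_comp (u v u' v' : ℤ) :
    hgt ι hfix (u • (u' • genOdd W ι σ hgen hodd + v' • frobOdd W σ (genOdd W ι σ hgen hodd)) +
        v • frobOdd W σ (u' • genOdd W ι σ hgen hodd + v' • frobOdd W σ (genOdd W ι σ hgen hodd))) =
      hgt ι hfix (u • genOdd W ι σ hgen hodd + v • frobOdd W σ (genOdd W ι σ hgen hodd)) *
        hgt ι hfix (u' • genOdd W ι σ hgen hodd + v' • frobOdd W σ (genOdd W ι σ hgen hodd)) := by
  set Q := genOdd W ι σ hgen hodd with hQdef
  set P' := u' • Q + v' • frobOdd W σ Q with hP'def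
  have hpar := hgt_parallelogram (W := W) ι hfix (σ := σ)
  by_cases h0 : hgt ι hfix P' = 0
  · rw [h0, mul_zero, zsmul_add_zsmul hpar, h0, hgt_frobOdd, h0,
      bil_eq_zero_of_nonneg hpar (hgt_nonneg ι hfix) h0]
    ring
  · -- `P'` is affine with non-constant `x`-coordinate
    obtain ⟨P'₁, hP'₁⟩ : ∃ P'₁ : oddPoints W σ, P'₁ = P' := ⟨P', rfl⟩
    obtain ⟨P'₂, hP'mem⟩ := P'₁
    rcases P'₂ with _ | ⟨x', y', h'⟩
    · exfalso
      apply h0
      rw [← hP'₁]
      exact hgt_zero ι hfix
    · have hx' : x' ∉ (algebraMap k K).range := by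
        rintro ⟨c, rfl⟩
        apply h0
        rw [← hP'₁, hgt, xT_eq_of_some ι hfix (Q := ⟨_, hP'mem⟩) (f := RatFunc.C c) rfl
          (by rw [← RatFunc.algebraMap_eq_C, AlgHom.commutes])]
        simp [ratDeg]
      obtain ⟨s, hsx, hsy⟩ := subst x' y' h' hP'mem hx'
      have hmapQ : Point.map (W' := W) s (Q : (W⁄K).Point) = (P' : (W⁄K).Point) := by
        rw [← hP'₁]
        show Point.map (W' := W) s (Point.some _ _ hgen) = Point.some x' y' h'
        rw [Point.map_some]
        exact some_congr _ hsx hsy _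
      have hmapR : Point.map (W' := W) s ((u • Q + v • frobOdd W σ Q : oddPoints W σ) :
          (W⁄K).Point) = ((u • P' + v • frobOdd W σ P' : oddPoints W σ) : (W⁄K).Point) := by
        simp only [AddSubgroup.coe_add, AddSubgroup.coe_zsmul, coe_frobOdd, map_add, map_zsmul,
          map_frobPt_comm, hmapQ]
      exact hgt_map_subst ι hfix s (hgen := hgen) rfl hmapQ hmapR

include subst center H in
/-- the point `Φ² Q - a Φ Q + l Q` has height zero. -/
theorem hgt_charEq_eq_zero :
    hgt ι hfix (frobOdd W σ (frobOdd W σ (genOdd W ι σ hgen hodd)) -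
      W.traceOfFrobenius • frobOdd W σ (genOdd W ι σ hgen hodd) +
      (l : ℤ) • genOdd W ι σ hgen hodd) = 0 := by
  have hpar := hgt_parallelogram (W := W) ι hfix (σ := σ)
  refine height_charEq_eq_zero hpar (frobOdd W σ) (l : ℤ) (hgt_frobOdd ι hfix)
    (genOdd W ι σ hgen hodd) (hgt_generic ι hfix rfl)
    (hgt_comp W ι σ hfix hgen hodd subst) W.traceOfFrobenius ?_
  obtain ⟨fm, gm, hm, em⟩ := exists_isRep ι hfix
    (frobOdd W σ (genOdd W ι σ hgen hodd) - genOdd W ι σ hgen hodd)
  obtain ⟨fp, gp, hp, ep⟩ := exists_isRep ι hfix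
    (frobOdd W σ (genOdd W ι σ hgen hodd) + genOdd W ι σ hgen hodd)
  rw [AddSubgroup.coe_sub, coe_frobOdd] at hm
  rw [AddSubgroup.coe_add, coe_frobOdd] at hp
  have hcard := pairDeg_eq_card W ι H hgen center hp hm
  rw [← em, hcard, WeierstrassCurve.traceOfFrobenius, WeierstrassCurve.card, Nat.card_zmod]
  ring

omit [IsAlgClosed k] [DecidableEq k] [DecidableEq K] [W.IsElliptic] in
theorem baseChange_a_eq :
    (W⁄K).a₁ = algebraMap k K (W⁄k).a₁ ∧ (W⁄K).a₂ = algebraMap k K (W⁄k).a₂ ∧
    (W⁄K).a₃ = algebraMap k K (W⁄k).a₃ ∧ (W⁄K).a₄ = algebraMap k K (W⁄k).a₄ ∧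
    (W⁄K).a₆ = algebraMap k K (W⁄k).a₆ := by
  have e : W⁄K = (W⁄k)⁄K := Parallelogram.baseChange_eq_baseChange_baseChange (k := k) W
  refine ⟨?_, ?_, ?_, ?_, ?_⟩ <;> rw [e] <;> rfl

include subst center H hfix hodd in
/-- **The characteristic equation of Frobenius** on the points of `W` over an algebraically closed
field `k`, from abstract function-field data. -/
theorem frob_charEq_of_data (T : (W⁄k).Point) :
    frobPt W k (frobPt W k T) - W.traceOfFrobenius • frobPt W k T + (l : ℤ) • T = 0 := by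
  set a := W.traceOfFrobenius with ha
  set Q := genOdd W ι σ hgen hodd with hQ
  set Z : oddPoints W σ := frobOdd W σ (frobOdd W σ Q) - a • frobOdd W σ Q + (l : ℤ) • Q with hZ
  have hZ0 : hgt ι hfix Z = 0 := hgt_charEq_eq_zero W ι σ hfix H hgen hodd center subst
  have hZcoe : (Z : (W⁄K).Point) = frobPt W K (frobPt W K (Point.some _ _ hgen)) -
      a • frobPt W K (Point.some _ _ hgen) + (l : ℤ) • Point.some _ _ hgen := by
    simp only [hZ, AddSubgroup.coe_add, AddSubgroup.coe_sub, AddSubgroup.coe_zsmul, coe_frobOdd]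
    rfl
  -- specialisation of `Z` at a place centred at `T₀`
  have key : ∀ (x₀ y₀ : k) (h₀ : (W⁄k).Nonsingular x₀ y₀),
      ∃ (A : ValuationSubring K) (hk : ∀ c : k, algebraMap k K c ∈ A) (hA : A ≠ ⊤),
        specHom W H A hk hA (Z : (W⁄K).Point) =
          frobPt W k (frobPt W k (Point.some x₀ y₀ h₀)) - a • frobPt W k (Point.some x₀ y₀ h₀) +
            (l : ℤ) • Point.some x₀ y₀ h₀ := by
    intro x₀ y₀ h₀
    obtain ⟨A, hk, hA, -, hs⟩ := spec_gen W ι H hgen center h₀
    refine ⟨A, hk, hA, ?_⟩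
    rw [hZcoe, map_add, map_sub, map_zsmul, map_zsmul, specHom_frobPt, specHom_frobPt, hs]
  rcases eq_zero_or_of_hgt_eq_zero ι hfix hZ0 with hZz | ⟨c, y₁, hns, hZc⟩
  · rcases T with _ | ⟨x₀, y₀, h₀⟩
    · show frobPt W k (frobPt W k 0) - a • frobPt W k 0 + (l : ℤ) • (0 : (W⁄k).Point) = 0
      simp
    · obtain ⟨A, hk, hA, hs⟩ := key x₀ y₀ h₀
      rw [← hs, hZz]
      exact map_zero _
  · exfalso
    -- the constant point `Z = (c, y₁)` has `y₁` constant too
    obtain ⟨e1, e2, e3, e4, e6⟩ := baseChange_a_eq W (k := k) (K := K)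
    have hint : IsIntegral k y₁ := by
      refine ⟨X ^ 2 + C ((W⁄k).a₁ * c + (W⁄k).a₃) * X -
        C (c ^ 3 + (W⁄k).a₂ * c ^ 2 + (W⁄k).a₄ * c + (W⁄k).a₆), ?_, ?_⟩
      · have : (X ^ 2 + C ((W⁄k).a₁ * c + (W⁄k).a₃) * X -
            C (c ^ 3 + (W⁄k).a₂ * c ^ 2 + (W⁄k).a₄ * c + (W⁄k).a₆) : k[X]) =
            X ^ 2 + (C ((W⁄k).a₁ * c + (W⁄k).a₃) * X -
            C (c ^ 3 + (W⁄k).a₂ * c ^ 2 + (W⁄k).a₄ * c + (W⁄k).a₆)) := by ring
        rw [this]
        apply monic_X_pow_add
        refine lt_of_le_of_lt (degree_sub_le _ _) (max_lt ?_ ?_)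
        · exact lt_of_le_of_lt (degree_C_mul_X_le _) (by norm_num)
        · exact lt_of_le_of_lt degree_C_le (by norm_num)
      · have heq := (Affine.equation_iff _ _).1 hns.1
        rw [e1, e2, e3, e4, e6] at heq
        simp only [eval₂_sub, eval₂_add, eval₂_mul, eval₂_pow, eval₂_X, eval₂_C, map_add, map_mul,
          map_pow]
        linear_combination heq
    obtain ⟨d, rfl⟩ := Places.mem_range_of_isIntegral hint
    have hns' : (W⁄k).Nonsingular c d :=
      (W.toAffine.baseChange_nonsingular (f := Algebra.ofId k K) (Algebra.ofId k K).injective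
        c d).1 hns
    -- every affine point is sent to `Z₀ = (c, d)` by `ψ = φ² - a φ + l`
    have hconst : ∀ (x₀ y₀ : k) (h₀ : (W⁄k).Nonsingular x₀ y₀),
        frobPt W k (frobPt W k (Point.some x₀ y₀ h₀)) - a • frobPt W k (Point.some x₀ y₀ h₀) +
            (l : ℤ) • Point.some x₀ y₀ h₀ = Point.some c d hns' := by
      intro x₀ y₀ h₀
      obtain ⟨A, hk, hA, hs⟩ := key x₀ y₀ h₀
      rw [← hs, hZc]
      exact specHom_some W H A hk hA hns (by rw [sub_self]; exact A.mem_nonunits_iff.2 (by rw [map_zero]; exact zero_lt_one))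
        (by rw [sub_self]; exact A.mem_nonunits_iff.2 (by rw [map_zero]; exact zero_lt_one)) hns'
    obtain ⟨y₁', h₁⟩ := exists_nonsingular W (0 : k)
    obtain ⟨y₂', h₂⟩ := exists_nonsingular W (1 : k)
    have hsum : (Point.some _ _ h₁ + Point.some _ _ h₂ : (W⁄k).Point) ≠ 0 := by
      intro h0
      have h3 : (Point.some _ _ h₁ : (W⁄k).Point) = -Point.some _ _ h₂ :=
        add_eq_zero_iff_eq_neg.1 h0
      have := congrArg Point.xRep h3
      rw [Point.xRep_neg, Point.xRep_some, Point.xRep_some] at this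
      have := congrFun this 0
      simp at this
    have hψadd : ∀ T₁ T₂ : (W⁄k).Point,
        frobPt W k (frobPt W k (T₁ + T₂)) - a • frobPt W k (T₁ + T₂) + (l : ℤ) • (T₁ + T₂) =
          (frobPt W k (frobPt W k T₁) - a • frobPt W k T₁ + (l : ℤ) • T₁) +
          (frobPt W k (frobPt W k T₂) - a • frobPt W k T₂ + (l : ℤ) • T₂) := by
      intro T₁ T₂
      simp only [map_add, smul_add]
      abel
    have h12 := hψadd (Point.some _ _ h₁) (Point.some _ _ h₂)
    rw [hconst _ _ h₁, hconst _ _ h₂] at h12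
    rcases hT3 : (Point.some _ _ h₁ + Point.some _ _ h₂ : (W⁄k).Point) with _ | ⟨x₃, y₃, h₃⟩
    · exact hsum hT3
    · rw [hT3, hconst _ _ h₃] at h12
      have : (Point.some c d hns' : (W⁄k).Point) = 0 := by
        have h' : (Point.some c d hns' : (W⁄k).Point) + 0 =
            Point.some c d hns' + Point.some c d hns' := by rw [add_zero]; exact h12
        exact (add_left_cancel h').symm
      exact Point.some_ne_zero _ this

end Main

end Fermat.Agent.Lib.EC.FrobCharEq
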