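import Mathlib

/-!
helper2 (P-ELL block B, `FrobCharEq`).  The degree of a rational function is multiplicative under
substitution: for a `k`-algebra endomorphism `ψ` of `k(X)`, `deg (ψ R) = deg R * deg (ψ X)`.
Proof: `deg f = [k(X) : k(f)]` (Mathlib `RatFunc.finrank_eq_max_natDegree`) and the tower law.
-/

set_option autoImplicit false
open Polynomial IntermediateField

namespace Fermat.Agent.Lib.EC.FrobCharEq

variable {k : Type*} [Field k]

/-- The height (degree) of a rational function. -/
noncomputable def ratDeg (f : RatFunc k) : ℕ := max f.num.natDegree f.denom.natDegree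

theorem ratDeg_eq_finrank (f : RatFunc k) : ratDeg f = Module.finrank k⟮f⟯ (RatFunc k) :=
  (RatFunc.finrank_eq_max_natDegree f).symm

/-- Degrees multiply under composition (substitution) of rational functions. -/
theorem ratDeg_algHom (ψ : RatFunc k →ₐ[k] RatFunc k) (R : RatFunc k) :
    ratDeg (ψ R) = ratDeg R * ratDeg (ψ RatFunc.X) := by
  rw [ratDeg_eq_finrank, ratDeg_eq_finrank, ratDeg_eq_finrank]
  have h1 : k⟮ψ RatFunc.X⟯ = IntermediateField.map ψ ⊤ := by
    rw [← RatFunc.adjoin_X, IntermediateField.adjoin_map, Set.image_singleton]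
  have h2 : k⟮ψ R⟯ = IntermediateField.map ψ k⟮R⟯ := by
    rw [IntermediateField.adjoin_map, Set.image_singleton]
  have hle : k⟮ψ R⟯ ≤ k⟮ψ RatFunc.X⟯ := by
    rw [h1, h2]
    exact IntermediateField.map_mono ψ le_top
  rw [← relfinrank_mul_finrank_top hle, h1, h2, relfinrank_map_map, relfinrank_top_right]

end Fermat.Agent.Lib.EC.FrobCharEq
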