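import Fermat.Agent.Lib.EC.FrobCharEq.Rep

/-!
helper2 (P-ELL block B, `FrobCharEq`).  Composition (C): the height on odd points is multiplicative
under substitution endomorphisms of the function field (`hgt_map_subst`), via
`CompDeg.ratDeg_algHom`.
-/

set_option autoImplicit false
set_option linter.unusedSectionVars false

namespace Fermat.Agent.Lib.EC.FrobCharEq

open Polynomial WeierstrassCurve WeierstrassCurve.Affine Fermat.Agent.Lib.EC

section Compose

open Parallelogram

variable {R : Type*} [CommRing R] {W : WeierstrassCurve R}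
  {k K : Type*} [Field k] [Field K] [Algebra R k] [Algebra R K] [Algebra k K]
  [IsScalarTower R k K] [DecidableEq K]
variable (ι : RatFunc k →ₐ[k] K) {σ : K →ₐ[k] K} (hfix : ∀ a : K, σ a = a → a ∈ ι.range)

theorem polyEmb_eq_aeval' (p : k[X]) : polyEmb ι p = aeval (ι RatFunc.X) p := by
  have : ((ι : RatFunc k →ₐ[k] K).comp (IsScalarTower.toAlgHom k k[X] (RatFunc k))) =
      aeval (ι RatFunc.X) := by
    apply Polynomial.algHom_ext
    simp [RatFunc.algebraMap_X]
  exact AlgHom.congr_fun this p

/-- **Heights are multiplicative under substitution.**  If `s` is a `k`-endomorphism of `K` mapping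
the generic point `Q = (ι X, y)` to the odd point `P'`, and `R` to `R'`, then
`hgt R' = hgt R * hgt P'`. -/
theorem hgt_map_subst (s : K →ₐ[k] K) {Q P' R R' : oddPoints W σ} {y : K}
    {hgen : (W⁄K).Nonsingular (ι RatFunc.X) y}
    (hQ : (Q : (W⁄K).Point) = Point.some _ _ hgen)
    (hP' : Point.map (W' := W) s (Q : (W⁄K).Point) = P')
    (hR' : Point.map (W' := W) s (R : (W⁄K).Point) = R') :
    hgt ι hfix R' = hgt ι hfix R * hgt ι hfix P' := by
  -- the `x`-coordinate of `P'`
  rw [hQ, Point.map_some] at hP'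
  set f := xT ι hfix P' with hf
  have hιf : ι f = s (ι RatFunc.X) := map_xT ι hfix hP'.symm
  -- the substitution `X ↦ f` on `k(X)`
  have hinj : Function.Injective (aeval f : k[X] →ₐ[k] RatFunc k) := by
    rw [injective_iff_map_eq_zero]
    intro p hp
    have h1 : s (polyEmb ι p) = 0 := by
      rw [polyEmb_eq_aeval', ← Polynomial.aeval_algHom_apply, ← hιf,
        Polynomial.aeval_algHom_apply, hp, map_zero]
    have h2 : polyEmb ι p = 0 := by
      apply (s : K →+* K).injective
      rw [RingHom.coe_coe, h1, map_zero]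
    exact polyEmb_injective ι (by rw [h2, map_zero])
  set ψ : RatFunc k →ₐ[k] RatFunc k := IsFractionRing.liftAlgHom (g := aeval f) hinj with hψ
  have hψp : ∀ p : k[X], ψ (algebraMap k[X] (RatFunc k) p) = aeval f p := by
    intro p
    simp [hψ, IsFractionRing.liftAlgHom_apply]
  have hψX : ψ RatFunc.X = f := by
    rw [← RatFunc.algebraMap_X, hψp, aeval_X]
  have hsp : ∀ p : k[X], s (polyEmb ι p) = ι (ψ (algebraMap k[X] (RatFunc k) p)) := by
    intro p
    rw [hψp, polyEmb_eq_aeval', ← Polynomial.aeval_algHom_apply, ← hιf,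
      Polynomial.aeval_algHom_apply]
  have hsι : ∀ r : RatFunc k, s (ι r) = ι (ψ r) := by
    intro r
    rw [ι_eq_div, map_div₀, hsp, hsp, ← map_div₀, ← map_div₀, RatFunc.num_div_denom]
  by_cases hR0 : R = 0
  · subst hR0
    have : R' = 0 := by
      apply Subtype.ext
      rw [← hR']
      exact map_zero _
    rw [this, hgt_zero, zero_mul]
  · obtain ⟨R₁, hR₁⟩ := R
    rcases R₁ with _ | ⟨xR, yR, hnsR⟩
    · exact absurd (Subtype.ext rfl) hR0
    · have hρ : ι (xT ι hfix ⟨_, hR₁⟩) = xR := map_xT ι hfix (Q := ⟨_, hR₁⟩) rfl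
      simp only [Point.map_some] at hR'
      have hxR' : xT ι hfix R' = ψ (xT ι hfix ⟨_, hR₁⟩) := by
        apply xT_eq_of_some ι hfix hR'.symm
        rw [← hsι, hρ]
      rw [hgt, hgt, hgt, hxR', ratDeg_algHom, hψX]
      push_cast
      rfl

end Compose

end Fermat.Agent.Lib.EC.FrobCharEq
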