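import Fermat.Agent.Lib.EC.FrobCharEq.CharEq
import Fermat.Agent.Lib.EC.FunctionField.Concrete

/-!
helper2 (P-ELL block B, `FrobCharEq`).  **The characteristic equation of Frobenius**
`φ² - a φ + l = 0` on the points of an elliptic curve `W` over `ZMod l` with values in any
algebraically closed field `k` over `ZMod l`, where `a = W.traceOfFrobenius = l + 1 - #W(ZMod l)`
(the Prelude's point-count definition).  Instantiation of `frob_charEq_of_data` with helper97's
concrete function field data (`Lib/EC/FunctionField/Concrete.lean`).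
-/

set_option autoImplicit false

namespace Fermat.Agent.Lib.EC.FrobCharEq

open Polynomial WeierstrassCurve WeierstrassCurve.Affine Fermat.Agent.Lib.EC
open Fermat.Agent.Lib.EC.FunctionField

/-- **Characteristic equation of Frobenius** (`frobPt` form). -/
theorem frobPt_charEq {l : ℕ} [Fact l.Prime] (W : WeierstrassCurve (ZMod l)) [W.IsElliptic]
    (k : Type*) [Field k] [Algebra (ZMod l) k] [IsAlgClosed k] [DecidableEq k]
    (T : (W⁄k).Point) :
    frobPt W k (frobPt W k T) - W.traceOfFrobenius • frobPt W k T + (l : ℤ) • T = 0 := by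
  classical
  have hW := not_two_a₁_a₃_of_isElliptic W k
  refine frob_charEq_of_data W (K := FF W k) (ratEmb W k) (involA W k)
    (FunctionField.hfix W k hW) (isOneVar W k) (nonsingular_ratEmb_X W k) ?_ ?_ ?_ T
  · exact Parallelogram.some_mem_oddPoints (involA_ratEmb W k _) (involA_yF W k)
  · intro x₀ y₀ h₀
    obtain ⟨A, hk, -, -, -, hx, hy⟩ := exists_place_center W k h₀.1
    refine ⟨A, hk, ?_, hy⟩
    rw [ratEmb_X]
    exact hx
  · intro x' y' h' _ hx'
    exact exists_substHom W k h'.1 (Places.transcendental_of_notMem_range hx')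

/-- **Characteristic equation of Frobenius**, in the form requested by the S52 assembly:
`Φ := Point.map (frobeniusAlgHom (ZMod l) k)`. -/
theorem frob_charEq {l : ℕ} [Fact l.Prime] (W : WeierstrassCurve (ZMod l)) [W.IsElliptic]
    (k : Type*) [Field k] [Algebra (ZMod l) k] [IsAlgClosed k] [DecidableEq k]
    (T : (W⁄k).Point) :
    Point.map (W' := W) (FiniteField.frobeniusAlgHom (ZMod l) k)
        (Point.map (W' := W) (FiniteField.frobeniusAlgHom (ZMod l) k) T) -
      W.traceOfFrobenius • Point.map (W' := W) (FiniteField.frobeniusAlgHom (ZMod l) k) T +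
      (l : ℤ) • T = 0 :=
  frobPt_charEq W k T

end Fermat.Agent.Lib.EC.FrobCharEq
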