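import Fermat.Agent.Lib.EC.ReductionTorsion
import Fermat.Agent.Lib.EC.FrobCharEq.Main

/-!
helper2 (P-ELL block B).  Congruence of the `a_ℓ` from a Galois-equivariant injection of
`n`-torsion, using ONLY the characteristic equation of Frobenius (`frob_charEq`), the injectivity
of reduction on torsion (helper34) and the Frobenius-lift equivariance of reduction (helper51).
No trace/determinant, no count of `E[n]`, no kernel counts.
-/

set_option autoImplicit false

namespace Fermat.Agent.Lib.EC.FrobCharEq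

open WeierstrassCurve WeierstrassCurve.Affine IsLocalRing Fermat.Agent.Lib.EC
open Fermat.Agent.Lib.EC.ReductionTorsion Fermat.Agent.Lib.EC.TraceAbstract

local notation "Qbar" => AlgebraicClosure ℚ

/-- The reduction of an integral model at a good prime is an elliptic curve. -/
theorem isElliptic_reductionMod (W : WeierstrassCurve ℤ) {ℓ : ℕ} [Fact ℓ.Prime]
    (hgood : W.IsGoodPrimeFor ℓ) : (W.reductionMod ℓ).IsElliptic := by
  refine ⟨?_⟩
  have h1 : (W.reductionMod ℓ).Δ = ((W.Δ : ℤ) : ZMod ℓ) := by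
    show (W.map (Int.castRingHom (ZMod ℓ))).Δ = _
    rw [WeierstrassCurve.map_Δ]
    rfl
  rw [h1]
  apply IsUnit.mk0
  intro h0
  exact hgood ((ZMod.intCast_zmod_eq_zero_iff_dvd _ _).mp h0)

/-- **A Frobenius lift satisfies the characteristic equation on `E[n](ℚ̄)`.** -/
theorem frobLift_charEq (W : WeierstrassCurve ℤ) {ℓ n : ℕ} [Fact ℓ.Prime] [Fact n.Prime]
    (hnℓ : n ≠ ℓ) (hgood : W.IsGoodPrimeFor ℓ) (A : ValuationSubring Qbar)
    (hA : A.LiesOverPrime ℓ) (σ : Qbar ≃ₐ[ℚ] Qbar) (hσ : A.IsFrobeniusAt σ ℓ)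
    (v : tors (curveQbar W).Point n) :
    σ • σ • v - (W.apOfModel ℓ) • σ • v + (ℓ : ℤ) • v = 0 := by
  have hℓ : ℓ.Prime := Fact.out
  have hn : n.Prime := Fact.out
  have : CharP (ResidueField A) ℓ := charP_residueField A hℓ hA
  let _ : Algebra (ZMod ℓ) (ResidueField A) := ZMod.algebra _ ℓ
  have : IsAlgClosed (ResidueField A) := isAlgClosed_residueField A
  let _ : DecidableEq (ResidueField A) := Classical.decEq _
  have : (W.reductionMod ℓ).IsElliptic := isElliptic_reductionMod W hgood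
  set k := ResidueField A with hk
  let Fr : k →ₐ[ZMod ℓ] k := FiniteField.frobeniusAlgHom (ZMod ℓ) k
  have hFr : ∀ x, Fr x = x ^ ℓ := by
    intro x
    show x ^ Fintype.card (ZMod ℓ) = x ^ ℓ
    rw [ZMod.card]
  have hΔ : (curveRes W ℓ k).Δ ≠ 0 := curveRes_Δ_ne_zero W hgood
  have hR : IsReduction (residue A) (curveQbar W) (curveRes W ℓ k) := isReduction_model W _
  have hnA : A.valuation ((n : ℕ) : Qbar) = 1 := by
    have h1 : residue A ((n : ℕ) : A) ≠ 0 := by
      rw [map_natCast]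
      intro h0
      have := (CharP.cast_eq_zero_iff k ℓ n).mp h0
      exact hnℓ ((Nat.prime_dvd_prime_iff_eq hℓ hn).mp this).symm
    have := (pi_ne_zero_iff (residue A) _).mp h1
    simpa using this
  set u : tors (curveQbar W).Point n := σ • σ • v - (W.apOfModel ℓ) • σ • v + (ℓ : ℤ) • v with hu
  have hun : n • (u : (curveQbar W).Point) = 0 := by
    have := mem_tors.mp u.2
    rwa [natCast_zsmul] at this
  have hred : hR.redHom hΔ (u : (curveQbar W).Point) = 0 := by
    have hcoe : (u : (curveQbar W).Point) = σ • σ • (v : (curveQbar W).Point) -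
        (W.apOfModel ℓ) • σ • (v : (curveQbar W).Point) + (ℓ : ℤ) • (v : (curveQbar W).Point) := rfl
    rw [hcoe, map_add, map_sub, map_zsmul, map_zsmul]
    have hsm : ∀ P : (curveQbar W).Point, hR.redHom hΔ (σ • P) = Point.map Fr (hR.redHom hΔ P) :=
      fun P => red_smul W (residue A) Fr hFr (res_frob A hσ hℓ.ne_zero)
        (fun _ => frob_mem_iff A hσ) P
    rw [hsm, hsm]
    exact frob_charEq (W.reductionMod ℓ) k _
  apply Subtype.ext
  exact hR.redHom_injOn_torsion hΔ hnA hun (smul_zero n) (hred.trans (map_zero _).symm)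

/-- **Congruence of the `a_ℓ`** from a Galois-equivariant injective homomorphism
`E[n](ℚ̄) → E'[n](ℚ̄)` with `E[n](ℚ̄) ≠ 0`: `a_ℓ(E') ≡ a_ℓ(E) mod n` for every prime `ℓ ≠ n` of
good reduction for both models. -/
theorem apOfModel_congr_of_torsion_hom (W W' : WeierstrassCurve ℤ) {n : ℕ} [Fact n.Prime]
    (e : tors (curveQbar W).Point n →+ tors (curveQbar W').Point n)
    (hinj : Function.Injective e)
    (he : ∀ (σ : Qbar ≃ₐ[ℚ] Qbar) (P : tors (curveQbar W).Point n), e (σ • P) = σ • e P)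
    (hne : ∃ P : tors (curveQbar W).Point n, P ≠ 0)
    {ℓ : ℕ} [Fact ℓ.Prime] (hnℓ : n ≠ ℓ) (hgood : W.IsGoodPrimeFor ℓ)
    (hgood' : W'.IsGoodPrimeFor ℓ) :
    (n : ℤ) ∣ W'.apOfModel ℓ - W.apOfModel ℓ := by
  have hℓ : ℓ.Prime := Fact.out
  have hn : n.Prime := Fact.out
  obtain ⟨A, σ, hA, hσ⟩ := Fermat.Agent.Lib.exists_isFrobeniusAt ℓ hℓ
  obtain ⟨v₀, hv₀⟩ := hne
  -- apply the two characteristic equations to `w = e (σ⁻¹ • v₀)`
  obtain ⟨v, hv⟩ : ∃ v : tors (curveQbar W).Point n, σ • v = v₀ := ⟨σ⁻¹ • v₀, smul_inv_smul σ v₀⟩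
  have h1 := frobLift_charEq W hnℓ hgood A hA σ hσ v
  have h2 := frobLift_charEq W' hnℓ hgood' A hA σ hσ (e v)
  have h1' : σ • σ • e v - (W.apOfModel ℓ) • σ • e v + (ℓ : ℤ) • e v = 0 := by
    have := congrArg e h1
    rwa [map_add, map_sub, map_zsmul, map_zsmul, he, he, map_zero] at this
  have h3 : (W'.apOfModel ℓ - W.apOfModel ℓ) • σ • e v = 0 := by
    rw [sub_smul]
    have := congrArg₂ (· - ·) h1' h2
    simp only [sub_zero] at this
    rw [← this]
    abel
  have h4 : σ • e v = e v₀ := by rw [← he, hv]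
  rw [h4] at h3
  have hw0 : e v₀ ≠ 0 := fun h0 => hv₀ (hinj (h0.trans (map_zero e).symm))
  have hnw : (n : ℤ) • e v₀ = 0 := by
    apply Subtype.ext
    exact mem_tors.mp (e v₀).2
  have hord : addOrderOf (e v₀) = n := by
    have hd : addOrderOf (e v₀) ∣ n := by
      apply addOrderOf_dvd_of_nsmul_eq_zero
      rwa [natCast_zsmul] at hnw
    rcases (Nat.dvd_prime hn).mp hd with h | h
    · exact absurd (AddMonoid.addOrderOf_eq_one_iff.mp h) hw0
    · exact h
  have := (addOrderOf_dvd_iff_zsmul_eq_zero).mpr h3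
  rwa [hord] at this

end Fermat.Agent.Lib.EC.FrobCharEq
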