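import Mathlib

set_option autoImplicit false
open Polynomial

namespace Fermat.Agent.Lib.EC.FrobCharEq

section Primitive

variable {R : Type*} [CommRing R]

/-- A triple of ring elements generating the unit ideal. -/
def IsPrim (v : Fin 3 → R) : Prop := Ideal.span (Set.range v) = ⊤

theorem isPrim_iff_exists (v : Fin 3 → R) :
    IsPrim v ↔ ∃ c : Fin 3 → R, ∑ i, c i * v i = 1 := by
  unfold IsPrim
  rw [Ideal.eq_top_iff_one, Ideal.mem_span_range_iff_exists_fun]

/-- Two primitive triples which are projectively equal differ by a unit. -/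
theorem IsPrim.exists_unit_smul {v w : Fin 3 → R} (hv : IsPrim v) (hw : IsPrim w)
    (h : ∀ i j, v i * w j = v j * w i) : ∃ e : Rˣ, ∀ i, w i = e * v i := by
  obtain ⟨c, hc⟩ := (isPrim_iff_exists v).1 hv
  obtain ⟨d, hd⟩ := (isPrim_iff_exists w).1 hw
  have h1 : ∀ i, w i = (∑ j, c j * w j) * v i := by
    intro i
    calc w i = (∑ j, c j * v j) * w i := by rw [hc, one_mul]
      _ = ∑ j, c j * (v j * w i) := by rw [Finset.sum_mul]; simp [mul_assoc]
      _ = ∑ j, c j * (v i * w j) := by simp [h]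
      _ = (∑ j, c j * w j) * v i := by
          rw [Finset.sum_mul]; apply Finset.sum_congr rfl; intro j _; ring
  have h2 : ∀ i, v i = (∑ j, d j * v j) * w i := by
    intro i
    calc v i = (∑ j, d j * w j) * v i := by rw [hd, one_mul]
      _ = ∑ j, d j * (w j * v i) := by rw [Finset.sum_mul]; simp [mul_assoc]
      _ = ∑ j, d j * (w i * v j) := by
          apply Finset.sum_congr rfl; intro j _
          rw [mul_comm (w j), h i j, mul_comm (v j)]
      _ = (∑ j, d j * v j) * w i := by
          rw [Finset.sum_mul]; apply Finset.sum_congr rfl; intro j _; ring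
  set e := ∑ j, c j * w j with he
  set e' := ∑ j, d j * v j with he'
  have hee : e * e' = 1 := by
    have : ∀ i, v i = (e' * e) * v i := by
      intro i
      rw [mul_assoc, ← h1 i, ← h2 i]
    calc e * e' = (e * e') * ∑ i, c i * v i := by rw [hc, mul_one]
      _ = ∑ i, c i * ((e' * e) * v i) := by
          rw [Finset.mul_sum]; apply Finset.sum_congr rfl; intro i _; ring
      _ = ∑ i, c i * v i := by simp only [← this]
      _ = 1 := hc
  exact ⟨⟨e, e', hee, by rw [mul_comm]; exact hee⟩, h1⟩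

/-- The "symmetric square" triple `(x x', x + x', 1)` of two fractions `x = f/g`, `x' = f'/g'`
in homogeneous coordinates. -/
def sym2 (f g f' g' : R) : Fin 3 → R :=
  ![f * f', f * g' + g * f', g * g']

@[simp] theorem sym2_zero (f g f' g' : R) : sym2 f g f' g' 0 = f * f' := rfl
@[simp] theorem sym2_one (f g f' g' : R) : sym2 f g f' g' 1 = f * g' + g * f' := rfl
@[simp] theorem sym2_two (f g f' g' : R) : sym2 f g f' g' 2 = g * g' := rfl

theorem isPrim_sym2 {f g f' g' : R} (ha : IsCoprime f g) (hb : IsCoprime f' g') :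
    IsPrim (sym2 f g f' g') := by
  unfold IsPrim
  by_contra hne
  obtain ⟨M, hM, hle⟩ := Ideal.exists_le_maximal _ hne
  have hmem : ∀ i, sym2 f g f' g' i ∈ M := fun i => hle (Ideal.subset_span ⟨i, rfl⟩)
  have hP := hM.isPrime
  have h0 : f * f' ∈ M := hmem 0
  have h1 : f * g' + g * f' ∈ M := hmem 1
  have h2 : g * g' ∈ M := hmem 2
  have hcop : ∀ {x y : R}, IsCoprime x y → x ∈ M → y ∈ M → False := by
    intro x y ⟨u, v, huv⟩ hx hy
    apply hP.ne_top
    rw [Ideal.eq_top_iff_one, ← huv]
    exact M.add_mem (M.mul_mem_left _ hx) (M.mul_mem_left _ hy)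
  rcases hP.mem_or_mem h0 with ha0 | hb0
  · have ha1 : g ∉ M := fun h => hcop ha ha0 h
    have hb1 : g' ∈ M := (hP.mem_or_mem h2).resolve_left ha1
    have hb0 : f' ∉ M := fun h => hcop hb h hb1
    have : g * f' ∈ M := by
      have := M.sub_mem h1 (M.mul_mem_right g' ha0)
      simpa using this
    rcases hP.mem_or_mem this with h | h
    · exact ha1 h
    · exact hb0 h
  · have hb1 : g' ∉ M := fun h => hcop hb hb0 h
    have ha1 : g ∈ M := (hP.mem_or_mem h2).resolve_right hb1
    have ha0 : f ∉ M := fun h => hcop ha h ha1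
    have : f * g' ∈ M := by
      have := M.sub_mem h1 (M.mul_mem_right f' ha1)
      simpa using this
    rcases hP.mem_or_mem this with h | h
    · exact ha0 h
    · exact hb1 h

end Primitive

section Nat
variable {R S : Type*} [CommRing R] [CommRing S] (W : WeierstrassCurve R) (f : R →+* S)

theorem addSubMap_map (j : Fin 3) :
    (W.map f).addSubMap j = MvPolynomial.map f (W.addSubMap j) := by
  fin_cases j <;> simp [WeierstrassCurve.addSubMap, map_ofNat]

set_option maxHeartbeats 3200000 in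
theorem addSubMapCoeff_map (ij : Fin 3 × Fin 3) :
    (W.map f).addSubMapCoeff ij = MvPolynomial.map f (W.addSubMapCoeff ij) := by
  simp only [WeierstrassCurve.addSubMapCoeff]
  fin_cases ij <;>
  simp only [Nat.succ_eq_add_one, Nat.reduceAdd, Fin.isValue, Function.uncurry_apply_pair,
      Matrix.cons_val', Matrix.cons_val_zero, Matrix.cons_val_fin_one, neg_mul, Fin.mk_one,
      Matrix.cons_val_one, Fin.reduceFinMk, Matrix.cons_val, Fin.zero_eta] <;>
  simp only [map_add, map_sub, map_mul, map_neg, map_pow, MvPolynomial.map_C, MvPolynomial.map_X,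
    WeierstrassCurve.map_b₂, WeierstrassCurve.map_b₄, WeierstrassCurve.map_b₆,
    WeierstrassCurve.map_b₈, map_ofNat]

end Nat

section Deg

variable {k : Type*} [Field k]

theorem natDegree_eval₂_le_of_isHomogeneous {q : MvPolynomial (Fin 3) k} {n : ℕ}
    (hq : q.IsHomogeneous n) (v : Fin 3 → k[X]) (m : ℕ) (hv : ∀ i, (v i).natDegree ≤ m) :
    (MvPolynomial.eval₂ C v q).natDegree ≤ n * m := by
  rw [MvPolynomial.eval₂_eq]
  apply natDegree_sum_le_of_forall_le
  intro d hd
  have hdn : ∑ i ∈ d.support, d i = n := by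
    have := hq (MvPolynomial.mem_support_iff.1 hd)
    simpa [Finsupp.weight_apply, Finsupp.sum] using this
  refine (natDegree_C_mul_le _ _).trans ?_
  refine (natDegree_prod_le _ _).trans ?_
  calc ∑ i ∈ d.support, (v i ^ d i).natDegree ≤ ∑ i ∈ d.support, d i * m := by
        apply Finset.sum_le_sum
        intro i _
        exact (natDegree_pow_le).trans (Nat.mul_le_mul_left _ (hv i))
    _ = (∑ i ∈ d.support, d i) * m := by rw [Finset.sum_mul]
    _ = n * m := by rw [hdn]

/-- The maximal degree of a triple of polynomials. -/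
noncomputable def maxDeg (v : Fin 3 → k[X]) : ℕ := Finset.univ.sup fun i => (v i).natDegree

theorem natDegree_le_maxDeg (v : Fin 3 → k[X]) (i : Fin 3) : (v i).natDegree ≤ maxDeg v :=
  Finset.le_sup (f := fun i => (v i).natDegree) (Finset.mem_univ i)

theorem exists_natDegree_eq_maxDeg (v : Fin 3 → k[X]) : ∃ i, (v i).natDegree = maxDeg v := by
  obtain ⟨i, -, hi⟩ := Finset.exists_mem_eq_sup (Finset.univ : Finset (Fin 3))
    Finset.univ_nonempty (fun i => (v i).natDegree)
  exact ⟨i, hi.symm⟩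

theorem maxDeg_le_iff (v : Fin 3 → k[X]) (n : ℕ) : maxDeg v ≤ n ↔ ∀ i, (v i).natDegree ≤ n := by
  unfold maxDeg
  simp [Finset.sup_le_iff]

variable (W : WeierstrassCurve k)

/-- The add-sub map of `W` evaluated at a triple of polynomials. -/
noncomputable def asEval (v : Fin 3 → k[X]) : Fin 3 → k[X] :=
  fun j => MvPolynomial.eval₂ C v (W.addSubMap j)

theorem asEval_apply (v : Fin 3 → k[X]) :
    asEval W v = ![v 0 ^ 2 - C W.b₄ * v 0 * v 2 - C W.b₆ * v 1 * v 2 - C W.b₈ * v 2 ^ 2,
      2 * v 1 * v 0 + C W.b₂ * v 0 * v 2 + C W.b₄ * v 1 * v 2 + C W.b₆ * v 2 ^ 2,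
      v 1 ^ 2 - 4 * v 0 * v 2] := by
  funext j
  fin_cases j <;> simp [asEval, WeierstrassCurve.addSubMap, map_ofNat]

theorem asEval_eq (v : Fin 3 → k[X]) (j : Fin 3) :
    asEval W v j = MvPolynomial.eval v ((W.map C).addSubMap j) := by
  rw [addSubMap_map, MvPolynomial.eval_map]; rfl

theorem maxDeg_asEval_le (v : Fin 3 → k[X]) : maxDeg (asEval W v) ≤ 2 * maxDeg v := by
  rw [maxDeg_le_iff]
  intro j
  exact natDegree_eval₂_le_of_isHomogeneous (W.isHomogeneous_addSubMap j) v _
    (natDegree_le_maxDeg v)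

variable [W.IsElliptic]

theorem exists_coeff_asEval (v : Fin 3 → k[X]) (i : Fin 3) :
    ∃ c : Fin 3 → k[X], (∀ j, (c j).natDegree ≤ 2 * maxDeg v) ∧
      ∑ j, c j * asEval W v j = v i ^ 4 := by
  refine ⟨fun j => MvPolynomial.eval v
    (MvPolynomial.C (↑(W.map C).Δ'⁻¹ : k[X]) * (W.map C).addSubMapCoeff (i, j)), ?_, ?_⟩
  · intro j
    show (MvPolynomial.eval v (MvPolynomial.C (↑(W.map C).Δ'⁻¹ : k[X]) *
      (W.map C).addSubMapCoeff (i, j))).natDegree ≤ _
    rw [map_mul, MvPolynomial.eval_C, addSubMapCoeff_map, MvPolynomial.eval_map]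
    refine natDegree_mul_le.trans ?_
    rw [natDegree_coe_units, zero_add]
    exact natDegree_eval₂_le_of_isHomogeneous (W.isHomogeneous_addSubMapCoeff (i, j)) v _
      (natDegree_le_maxDeg v)
  · simp only [asEval_eq]
    exact (W.map C).addSubMapCoeff_condition v i

theorem isPrim_asEval {v : Fin 3 → k[X]} (hv : IsPrim v) : IsPrim (asEval W v) := by
  unfold IsPrim
  by_contra hne
  obtain ⟨M, hM, hle⟩ := Ideal.exists_le_maximal _ hne
  have hmem : ∀ j, asEval W v j ∈ M := fun j => hle (Ideal.subset_span ⟨j, rfl⟩)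
  have hvi : ∀ i, v i ∈ M := by
    intro i
    obtain ⟨c, -, hc⟩ := exists_coeff_asEval W v i
    have : v i ^ 4 ∈ M := by
      rw [← hc]
      exact M.sum_mem fun j _ => M.mul_mem_left _ (hmem j)
    exact hM.isPrime.mem_of_pow_mem 4 this
  apply hM.ne_top
  rw [eq_top_iff, ← hv, Ideal.span_le]
  rintro _ ⟨i, rfl⟩
  exact hvi i

theorem maxDeg_asEval (v : Fin 3 → k[X]) : maxDeg (asEval W v) = 2 * maxDeg v := by
  apply le_antisymm (maxDeg_asEval_le W v)
  obtain ⟨i, hi⟩ := exists_natDegree_eq_maxDeg v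
  obtain ⟨c, hc1, hc2⟩ := exists_coeff_asEval W v i
  have h4 : (v i ^ 4).natDegree = 4 * maxDeg v := by rw [natDegree_pow, hi]
  have hle : (v i ^ 4).natDegree ≤ 2 * maxDeg v + maxDeg (asEval W v) := by
    rw [← hc2]
    apply natDegree_sum_le_of_forall_le
    intro j _
    exact natDegree_mul_le.trans (Nat.add_le_add (hc1 j) (natDegree_le_maxDeg _ j))
  omega

end Deg

section PairDeg

variable {k : Type*} [Field k]

/-- The height of the fraction `f / g`. -/
noncomputable def pairDeg (f g : k[X]) : ℕ := max f.natDegree g.natDegree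

theorem coeff_pairDeg_ne_zero {f g : k[X]} (h : ¬ (f = 0 ∧ g = 0)) :
    ¬ (f.coeff (pairDeg f g) = 0 ∧ g.coeff (pairDeg f g) = 0) := by
  rintro ⟨h1, h2⟩
  unfold pairDeg at h1 h2
  rcases le_total f.natDegree g.natDegree with hle | hle
  · rw [max_eq_right hle] at h1 h2
    have hg : g = 0 := by
      by_contra hg
      exact (leadingCoeff_ne_zero.2 hg) h2
    have hf : f.natDegree = 0 := by
      rw [hg, natDegree_zero] at hle; omega
    rw [hg, natDegree_zero] at h1
    apply h
    refine ⟨?_, hg⟩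
    rw [eq_C_of_natDegree_eq_zero hf, h1, C_0]
  · rw [max_eq_left hle] at h1 h2
    have hf : f = 0 := by
      by_contra hf
      exact (leadingCoeff_ne_zero.2 hf) h1
    have hg : g.natDegree = 0 := by
      rw [hf, natDegree_zero] at hle; omega
    rw [hf, natDegree_zero] at h2
    apply h
    refine ⟨hf, ?_⟩
    rw [eq_C_of_natDegree_eq_zero hg, h2, C_0]

end PairDeg


section Main

variable {k : Type*} [Field k]

theorem maxDeg_sym2 {f g f' g' : k[X]} (h : ¬ (f = 0 ∧ g = 0)) (h' : ¬ (f' = 0 ∧ g' = 0)) :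
    maxDeg (sym2 f g f' g') = pairDeg f g + pairDeg f' g' := by
  have hf : f.natDegree ≤ pairDeg f g := le_max_left _ _
  have hg : g.natDegree ≤ pairDeg f g := le_max_right _ _
  have hf' : f'.natDegree ≤ pairDeg f' g' := le_max_left _ _
  have hg' : g'.natDegree ≤ pairDeg f' g' := le_max_right _ _
  apply le_antisymm
  · rw [maxDeg_le_iff]
    intro i
    fin_cases i
    · exact natDegree_mul_le.trans (Nat.add_le_add hf hf')
    · refine (natDegree_add_le _ _).trans (max_le ?_ ?_)
      · exact natDegree_mul_le.trans (Nat.add_le_add hf hg')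
      · exact natDegree_mul_le.trans (Nat.add_le_add hg hf')
    · exact natDegree_mul_le.trans (Nat.add_le_add hg hg')
  · have hc := coeff_pairDeg_ne_zero h
    have hc' := coeff_pairDeg_ne_zero h'
    set m := pairDeg f g
    set m' := pairDeg f' g'
    have c0 : (sym2 f g f' g' 0).coeff (m + m') = f.coeff m * f'.coeff m' :=
      coeff_mul_add_eq_of_natDegree_le hf hf'
    have c2 : (sym2 f g f' g' 2).coeff (m + m') = g.coeff m * g'.coeff m' :=
      coeff_mul_add_eq_of_natDegree_le hg hg'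
    have c1 : (sym2 f g f' g' 1).coeff (m + m') =
        f.coeff m * g'.coeff m' + g.coeff m * f'.coeff m' := by
      rw [sym2_one, coeff_add, coeff_mul_add_eq_of_natDegree_le hf hg',
        coeff_mul_add_eq_of_natDegree_le hg hf']
    by_contra hlt
    rw [not_le] at hlt
    have hz : ∀ i, (sym2 f g f' g' i).coeff (m + m') = 0 := fun i =>
      coeff_eq_zero_of_natDegree_lt (lt_of_le_of_lt (natDegree_le_maxDeg _ i) hlt)
    have z0 := hz 0; have z1 := hz 1; have z2 := hz 2
    rw [c0] at z0; rw [c1] at z1; rw [c2] at z2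
    rcases mul_eq_zero.1 z0 with a | a
    · have b : g.coeff m ≠ 0 := fun b => hc ⟨a, b⟩
      have b' : g'.coeff m' = 0 := (mul_eq_zero.1 z2).resolve_left b
      have a' : f'.coeff m' ≠ 0 := fun a' => hc' ⟨a', b'⟩
      rw [a, zero_mul, zero_add] at z1
      exact (mul_ne_zero b a') z1
    · have b' : g'.coeff m' ≠ 0 := fun b' => hc' ⟨a, b'⟩
      have b : g.coeff m = 0 := (mul_eq_zero.1 z2).resolve_right b'
      have a0 : f.coeff m ≠ 0 := fun a0 => hc ⟨a0, b⟩
      rw [b, zero_mul, add_zero] at z1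
      exact (mul_ne_zero a0 b') z1

theorem not_zero_of_isCoprime {f g : k[X]} (h : IsCoprime f g) : ¬ (f = 0 ∧ g = 0) := by
  rintro ⟨rfl, rfl⟩
  obtain ⟨u, v, huv⟩ := h
  simp at huv

variable (W : WeierstrassCurve k) [W.IsElliptic]

/-- Core degree identity: if the symmetric triple of `(f₊/g₊, f₋/g₋)` is projectively equal to the
add-sub map applied to the symmetric triple of `(f₁/g₁, f₂/g₂)`, all fractions being reduced, then
the two triples agree up to a nonzero constant, and the heights satisfy the parallelogram law. -/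
theorem pairDeg_addSub {f₁ g₁ f₂ g₂ fp gp fm gm : k[X]} (h₁ : IsCoprime f₁ g₁)
    (h₂ : IsCoprime f₂ g₂) (hp : IsCoprime fp gp) (hm : IsCoprime fm gm) {p q : k[X]}
    (hp0 : p ≠ 0) (hq0 : q ≠ 0)
    (H : ∀ j, p * sym2 fp gp fm gm j = q * asEval W (sym2 f₁ g₁ f₂ g₂) j) :
    (∃ c : k, c ≠ 0 ∧ ∀ j, sym2 fp gp fm gm j = C c * asEval W (sym2 f₁ g₁ f₂ g₂) j) ∧
      pairDeg fp gp + pairDeg fm gm = 2 * (pairDeg f₁ g₁ + pairDeg f₂ g₂) := by
  set v := sym2 f₁ g₁ f₂ g₂ with hv
  set w := sym2 fp gp fm gm with hw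
  have hvP : IsPrim (asEval W v) := isPrim_asEval W (isPrim_sym2 h₁ h₂)
  have hwP : IsPrim w := isPrim_sym2 hp hm
  have hcross : ∀ i j, asEval W v i * w j = asEval W v j * w i := by
    intro i j
    have : p * q * (asEval W v i * w j) = p * q * (asEval W v j * w i) := by
      calc p * q * (asEval W v i * w j) = (q * asEval W v i) * (p * w j) := by ring
        _ = (p * w i) * (q * asEval W v j) := by rw [H i, H j]
        _ = p * q * (asEval W v j * w i) := by ring
    exact mul_left_cancel₀ (mul_ne_zero hp0 hq0) this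
  obtain ⟨e, he⟩ := hvP.exists_unit_smul hwP hcross
  obtain ⟨c, hc⟩ : ∃ c : k, (e : k[X]) = C c := ⟨_, eq_C_of_natDegree_eq_zero (natDegree_coe_units e)⟩
  have hc0 : c ≠ 0 := by
    rintro rfl
    rw [C_0] at hc
    exact e.ne_zero hc
  have hwv : ∀ j, w j = C c * asEval W v j := fun j => by rw [he j, hc]
  refine ⟨⟨c, hc0, hwv⟩, ?_⟩
  have hdeg : maxDeg w = maxDeg (asEval W v) := by
    unfold maxDeg
    congr 1
    funext j
    rw [hwv j, natDegree_C_mul hc0]
  rw [maxDeg_sym2 (not_zero_of_isCoprime hp) (not_zero_of_isCoprime hm), maxDeg_asEval,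
    maxDeg_sym2 (not_zero_of_isCoprime h₁) (not_zero_of_isCoprime h₂)] at hdeg
  exact hdeg

end Main

end Fermat.Agent.Lib.EC.FrobCharEq
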