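import Fermat.Agent.Lib.EC.FunctionField.Places
import Fermat.Agent.Lib.EC.Reduction.ReductionMap

/-!
helper2 (P-ELL block B, `FrobCharEq`).  Specialisation of points of a constant Weierstrass curve
over a function field `K / k` (`k` algebraically closed) at a place `A` of `K`: the reduction
homomorphism of helper34 for the residue map `A → k` of helper45.
-/

set_option autoImplicit false

namespace Fermat.Agent.Lib.EC.FrobCharEq

open Polynomial WeierstrassCurve WeierstrassCurve.Affine Fermat.Agent.Lib.EC

section Spec

variable {R : Type*} [CommRing R] (W : WeierstrassCurve R)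
  {k K : Type*} [Field k] [Field K] [Algebra R k] [Algebra R K] [Algebra k K]
  [IsScalarTower R k K] [IsAlgClosed k]
  (H : Places.IsOneVar k K) (A : ValuationSubring K)
  (hk : ∀ c : k, algebraMap k K c ∈ A) (hA : A ≠ ⊤)

instance isLocalHom_resk : IsLocalHom (Places.resk H A hk hA) where
  map_nonunit a ha := by
    by_contra hna
    have : (a : K) ∈ A.nonunits := by
      rw [ValuationSubring.coe_mem_nonunits_iff]
      exact (IsLocalRing.mem_maximalIdeal a).2 hna
    rw [← Places.resk_eq_zero_iff H A hk hA] at this
    rw [this] at ha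
    exact not_isUnit_zero ha

theorem isReduction_baseChange :
    IsReduction (Places.resk H A hk hA) (W.baseChange K) (W.baseChange k) := by
  have h := isReduction_comp (Places.resk H A hk hA)
    ((Places.constHom A hk).comp (algebraMap R k)) W
  have e1 : A.subtype.comp ((Places.constHom A hk).comp (algebraMap R k)) = algebraMap R K := by
    ext r
    simp [Places.constHom, IsScalarTower.algebraMap_apply R k K]
  have e2 : (Places.resk H A hk hA).comp ((Places.constHom A hk).comp (algebraMap R k)) =
      algebraMap R k := by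
    ext r
    simp
  rw [e1, e2] at h
  exact h

variable [W.IsElliptic]

omit [IsAlgClosed k] in
theorem Δ_baseChange_ne_zero : (W.baseChange k).Δ ≠ 0 := by
  have : (W.baseChange k).Δ = algebraMap R k W.Δ := W.map_Δ _
  rw [this]
  exact (W.isUnit_Δ.map (algebraMap R k)).ne_zero

variable [DecidableEq k] [DecidableEq K]

/-- Specialisation at a place `A` of the function field: a group homomorphism from the points over
`K` to the points over the constant field `k`. -/
noncomputable def specHom : (W⁄K).Point →+ (W⁄k).Point :=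
  (isReduction_baseChange W H A hk hA).redHom (Δ_baseChange_ne_zero W)

theorem specHom_eq_zero_iff (P : (W⁄K).Point) : specHom W H A hk hA P = 0 ↔ KerRed A P := by
  classical
  exact (isReduction_baseChange W H A hk hA).redHom_eq_zero_iff (Δ_baseChange_ne_zero W) P

theorem specHom_some {x y : K} (h : (W⁄K).Nonsingular x y) {x₀ y₀ : k}
    (hx : x - algebraMap k K x₀ ∈ A.nonunits) (hy : y - algebraMap k K y₀ ∈ A.nonunits)
    (h₀ : (W⁄k).Nonsingular x₀ y₀) :
    specHom W H A hk hA (Point.some x y h) = Point.some x₀ y₀ h₀ := by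
  have hmem : ∀ {z : K}, z ∈ A.nonunits → z ∈ A := fun hz =>
    (A.valuation_le_one_iff _).1 (le_of_lt (A.mem_nonunits_iff.1 hz))
  have hxA : x ∈ A := by
    have := add_mem (hmem hx) (hk x₀)
    simpa using this
  have hyA : y ∈ A := by
    have := add_mem (hmem hy) (hk y₀)
    simpa using this
  have rx : res (Places.resk H A hk hA) x = x₀ := by
    rw [res_of_mem _ hxA]
    exact Places.resk_eq_of_sub_mem_nonunits H A hk hA ⟨x, hxA⟩ x₀ hx
  have ry : res (Places.resk H A hk hA) y = y₀ := by
    rw [res_of_mem _ hyA]
    exact Places.resk_eq_of_sub_mem_nonunits H A hk hA ⟨y, hyA⟩ y₀ hy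
  have hns : (W⁄k).Nonsingular (res (Places.resk H A hk hA) x) (res (Places.resk H A hk hA) y) := by
    rw [rx, ry]; exact h₀
  show red (Places.resk H A hk hA) (W⁄K) (W⁄k) (Point.some x y h) = _
  rw [red_some_of_mem _ h hxA hyA hns]
  exact some_congr hns rx ry h₀

theorem specHom_some_of_mem {x y : K} (h : (W⁄K).Nonsingular x y) (hx : x ∈ A) :
    ∃ (hy : y ∈ A) (hns : (W⁄k).Nonsingular (Places.resk H A hk hA ⟨x, hx⟩)
      (Places.resk H A hk hA ⟨y, hy⟩)),
      specHom W H A hk hA (Point.some x y h) = Point.some _ _ hns := by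
  have hR := isReduction_baseChange W H A hk hA
  have hy : y ∈ A := by
    by_contra hy
    exact ((kerRed_some_iff_y hR.isIntegralOver h).mpr hy) hx
  have hE := hR.isE0_of_Δ_ne_zero (Δ_baseChange_ne_zero W) (Point.some x y h)
  have hns := (isE0_some _ h).1 hE hx
  have rx : res (Places.resk H A hk hA) x = Places.resk H A hk hA ⟨x, hx⟩ := res_of_mem _ hx
  have ry : res (Places.resk H A hk hA) y = Places.resk H A hk hA ⟨y, hy⟩ := res_of_mem _ hy
  have hns' : (W⁄k).Nonsingular (Places.resk H A hk hA ⟨x, hx⟩)
      (Places.resk H A hk hA ⟨y, hy⟩) := by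
    rw [← rx, ← ry]; exact hns
  refine ⟨hy, hns', ?_⟩
  show red (Places.resk H A hk hA) (W⁄K) (W⁄k) (Point.some x y h) = _
  rw [red_some_of_mem _ h hx hy hns]
  exact some_congr hns rx ry hns'

end Spec

section Frob

variable {l : ℕ} [Fact l.Prime] (W : WeierstrassCurve (ZMod l))
  (K : Type*) [Field K] [Algebra (ZMod l) K]

theorem frobAlgHom_apply (x : K) : FiniteField.frobeniusAlgHom (ZMod l) K x = x ^ l := by
  simp [ZMod.card]

variable {K} in
theorem nonsingular_pow {x y : K} (h : (W⁄K).Nonsingular x y) :
    (W⁄K).Nonsingular (x ^ l) (y ^ l) := by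
  have := (W.toAffine.baseChange_nonsingular (FiniteField.frobeniusAlgHom (ZMod l) K).injective x y).mpr h
  simpa only [frobAlgHom_apply] using this

variable [DecidableEq K]

/-- The Frobenius endomorphism of the group of points over a `ZMod l`-algebra. -/
noncomputable def frobPt : (W⁄K).Point →+ (W⁄K).Point :=
  Point.map (W' := W) (FiniteField.frobeniusAlgHom (ZMod l) K)

variable {K} in
theorem frobPt_some {x y : K} (h : (W⁄K).Nonsingular x y) :
    frobPt W K (Point.some x y h) = Point.some (x ^ l) (y ^ l) (nonsingular_pow W h) := by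
  have := Point.map_some (W' := W) (FiniteField.frobeniusAlgHom (ZMod l) K) h
  rw [frobPt, this]
  exact some_congr _ (frobAlgHom_apply K x) (frobAlgHom_apply K y) _

end Frob

section SpecFrob

variable {l : ℕ} [Fact l.Prime] (W : WeierstrassCurve (ZMod l)) [W.IsElliptic]
  {k K : Type*} [Field k] [Field K] [Algebra (ZMod l) k] [Algebra (ZMod l) K] [Algebra k K]
  [IsScalarTower (ZMod l) k K] [IsAlgClosed k] [DecidableEq k] [DecidableEq K]
  (H : Places.IsOneVar k K) (A : ValuationSubring K)
  (hk : ∀ c : k, algebraMap k K c ∈ A) (hA : A ≠ ⊤)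

theorem specHom_frobPt (P : (W⁄K).Point) :
    specHom W H A hk hA (frobPt W K P) = frobPt W k (specHom W H A hk hA P) := by
  rcases P with _ | ⟨x, y, h⟩
  · show specHom W H A hk hA (frobPt W K 0) = frobPt W k (specHom W H A hk hA 0)
    simp
  · rw [frobPt_some]
    by_cases hx : x ∈ A
    · obtain ⟨hy, hns, he⟩ := specHom_some_of_mem W H A hk hA h hx
      obtain ⟨hy', hns', he'⟩ := specHom_some_of_mem W H A hk hA (nonsingular_pow W h)
        (pow_mem hx l)
      rw [he, he', frobPt_some]
      refine some_congr _ ?_ ?_ _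
      · rw [← map_pow]; rfl
      · rw [← map_pow]; rfl
    · have h1 : specHom W H A hk hA (Point.some x y h) = 0 := by
        rw [specHom_eq_zero_iff]; exact hx
      have h2 : specHom W H A hk hA (Point.some (x ^ l) (y ^ l) (nonsingular_pow W h)) = 0 := by
        rw [specHom_eq_zero_iff]
        show x ^ l ∉ A
        intro hxl
        apply hx
        have hv : A.valuation (x ^ l) ≤ 1 := (A.valuation_le_one_iff _).2 hxl
        rw [map_pow] at hv
        apply (A.valuation_le_one_iff _).1
        exact (pow_le_one_iff_of_nonneg zero_le (Fact.out : l.Prime).ne_zero).1 hv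
      rw [h1, h2, map_zero]

end SpecFrob

end Fermat.Agent.Lib.EC.FrobCharEq
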