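import Fermat.Agent.Lib.EC.AddSub
import Fermat.Agent.Lib.EC.ParallelogramOdd
import Fermat.Agent.Lib.EC.FrobCharEq.PolyCore
import Fermat.Agent.Lib.EC.FrobCharEq.CompDeg
import Fermat.Agent.Lib.EC.FrobCharEq.Spec

/-!
helper2 (P-ELL block B, `FrobCharEq`).  Coprime polynomial representatives `IsRep` of the
`x`-coordinate of a point of `W` over a field `K ⊇ k(X)`, the add-sub relation `isRep_addSub`
between representatives of `P`, `Q`, `P + Q`, `P - Q`, and the height `hgt` on the odd points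
(helper28's `oddPoints`): exact parallelogram law `hgt_parallelogram`, `hgt_generic`,
`hgt_frobOdd` (Frobenius multiplies the height by `l`), points of height zero.
-/

set_option autoImplicit false
set_option linter.unusedSectionVars false

namespace Fermat.Agent.Lib.EC.FrobCharEq

open Polynomial WeierstrassCurve WeierstrassCurve.Affine Fermat.Agent.Lib.EC

section Rep

variable {R : Type*} [CommRing R] (W : WeierstrassCurve R)
  {k K : Type*} [Field k] [Field K] [Algebra R k] [Algebra R K] [Algebra k K]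
  [IsScalarTower R k K]
variable (ι : RatFunc k →ₐ[k] K)

/-- The embedding of the polynomial ring into `K` induced by `ι`. -/
noncomputable def polyEmb : k[X] →+* K :=
  (ι : RatFunc k →+* K).comp (algebraMap k[X] (RatFunc k))

theorem polyEmb_apply (f : k[X]) : polyEmb ι f = ι (algebraMap k[X] (RatFunc k) f) := rfl

theorem polyEmb_injective : Function.Injective (polyEmb ι) :=
  (ι : RatFunc k →+* K).injective.comp (IsFractionRing.injective k[X] (RatFunc k))

theorem polyEmb_C (a : k) : polyEmb ι (C a) = algebraMap k K a := by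
  rw [polyEmb_apply, RatFunc.algebraMap_C, ← RatFunc.algebraMap_eq_C, AlgHom.commutes]

theorem polyEmb_X : polyEmb ι X = ι RatFunc.X := by
  rw [polyEmb_apply, RatFunc.algebraMap_X]

theorem ι_eq_div (r : RatFunc k) : ι r = polyEmb ι r.num / polyEmb ι r.denom := by
  conv_lhs => rw [← RatFunc.num_div_denom r]
  rw [map_div₀]; rfl

/-- evaluation of the add-sub map of `W⁄K` at a scaled triple coming from polynomials. -/
theorem eval_addSubMap_polyEmb (c : K) (v : Fin 3 → k[X]) (j : Fin 3) :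
    MvPolynomial.eval (c • (polyEmb ι ∘ v)) ((W⁄K).addSubMap j) =
      c ^ 2 * polyEmb ι (asEval (W⁄k) v j) := by
  have hb : ∀ a : k, polyEmb ι (C a) = algebraMap k K a := polyEmb_C ι
  have e : W⁄K = (W⁄k)⁄K := Parallelogram.baseChange_eq_baseChange_baseChange (k := k) W
  have h2 : (W⁄K).b₂ = algebraMap k K (W⁄k).b₂ := by rw [e]; exact (W⁄k).map_b₂ _
  have h4 : (W⁄K).b₄ = algebraMap k K (W⁄k).b₄ := by rw [e]; exact (W⁄k).map_b₄ _
  have h6 : (W⁄K).b₆ = algebraMap k K (W⁄k).b₆ := by rw [e]; exact (W⁄k).map_b₆ _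
  have h8 : (W⁄K).b₈ = algebraMap k K (W⁄k).b₈ := by rw [e]; exact (W⁄k).map_b₈ _
  have hv : c • (polyEmb ι ∘ v) = ![c * polyEmb ι (v 0), c * polyEmb ι (v 1), c * polyEmb ι (v 2)] := by
    funext i; fin_cases i <;> simp
  have := congrFun (AddSub.eval_addSubMap (W⁄K) (c * polyEmb ι (v 0)) (c * polyEmb ι (v 1))
    (c * polyEmb ι (v 2))) j
  rw [hv, this, asEval_apply, h2, h4, h6, h8]
  fin_cases j <;> simp [hb, map_ofNat] <;> ring

variable [DecidableEq K]

/-- `(f, g)` is a coprime pair of polynomials representing the `x`-coordinate of `P`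
projectively. -/
def IsRep (P : (W⁄K).Point) (f g : k[X]) : Prop :=
  IsCoprime f g ∧ ∃ c : K, c ≠ 0 ∧ P.xRep = c • ![polyEmb ι f, polyEmb ι g]

variable {W ι}

theorem isRep_zero : IsRep W ι 0 1 0 := by
  refine ⟨isCoprime_one_left, 1, one_ne_zero, ?_⟩
  rw [Point.xRep_zero]
  funext i; fin_cases i <;> simp

theorem isRep_some {x y : K} (h : (W⁄K).Nonsingular x y) {r : RatFunc k} (hr : ι r = x) :
    IsRep W ι (Point.some x y h) r.num r.denom := by
  have hd : polyEmb ι r.denom ≠ 0 := by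
    intro h0
    exact r.denom_ne_zero (polyEmb_injective ι (by rw [h0, map_zero]))
  refine ⟨r.isCoprime_num_denom, (polyEmb ι r.denom)⁻¹, inv_ne_zero hd, ?_⟩
  rw [Point.xRep_some]
  funext i
  fin_cases i
  · simp only [Fin.zero_eta, Fin.isValue, Matrix.cons_val_zero, Pi.smul_apply, smul_eq_mul]
    rw [← hr, ι_eq_div, div_eq_inv_mul]
  · simp [inv_mul_cancel₀ hd]

theorem IsRep.unique {P : (W⁄K).Point} {f g f' g' : k[X]} (h : IsRep W ι P f g)
    (h' : IsRep W ι P f' g') : ∃ u : k, u ≠ 0 ∧ f' = C u * f ∧ g' = C u * g := by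
  obtain ⟨hc, c, hc0, hx⟩ := h
  obtain ⟨hc', c', hc0', hx'⟩ := h'
  have e0 : c * polyEmb ι f = c' * polyEmb ι f' := by
    have := congrFun (hx.symm.trans hx') 0
    simpa using this
  have e1 : c * polyEmb ι g = c' * polyEmb ι g' := by
    have := congrFun (hx.symm.trans hx') 1
    simpa using this
  have hcross : f * g' = f' * g := by
    apply polyEmb_injective ι
    rw [map_mul, map_mul]
    have : (c * c') * (polyEmb ι f * polyEmb ι g') = (c * c') * (polyEmb ι f' * polyEmb ι g) := by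
      calc (c * c') * (polyEmb ι f * polyEmb ι g')
          = (c * polyEmb ι f) * (c' * polyEmb ι g') := by ring
        _ = (c' * polyEmb ι f') * (c * polyEmb ι g) := by rw [e0, e1]
        _ = (c * c') * (polyEmb ι f' * polyEmb ι g) := by ring
    exact mul_left_cancel₀ (mul_ne_zero hc0 hc0') this
  obtain ⟨a, b, hab⟩ := hc
  obtain ⟨a', b', hab'⟩ := hc'
  set e := a * f' + b * g' with he
  set e' := a' * f + b' * g with he'
  have h1 : e * f = f' := by
    calc e * f = a * f' * f + b * (f * g') := by rw [he]; ring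
      _ = a * f' * f + b * (f' * g) := by rw [hcross]
      _ = f' * (a * f + b * g) := by ring
      _ = f' := by rw [hab, mul_one]
  have h2 : e * g = g' := by
    calc e * g = a * (f' * g) + b * g' * g := by rw [he]; ring
      _ = a * (f * g') + b * g' * g := by rw [hcross]
      _ = g' * (a * f + b * g) := by ring
      _ = g' := by rw [hab, mul_one]
  have h1' : e' * f' = f := by
    calc e' * f' = a' * f * f' + b' * (f' * g) := by rw [he']; ring
      _ = a' * f * f' + b' * (f * g') := by rw [hcross]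
      _ = f * (a' * f' + b' * g') := by ring
      _ = f := by rw [hab', mul_one]
  have h2' : e' * g' = g := by
    calc e' * g' = a' * (f * g') + b' * g * g' := by rw [he']; ring
      _ = a' * (f' * g) + b' * g * g' := by rw [hcross]
      _ = g * (a' * f' + b' * g') := by ring
      _ = g := by rw [hab', mul_one]
  have hee : e' * e = 1 := by
    calc e' * e = e' * e * (a * f + b * g) := by rw [hab, mul_one]
      _ = a * (e' * (e * f)) + b * (e' * (e * g)) := by ring
      _ = a * f + b * g := by rw [h1, h2, h1', h2']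
      _ = 1 := hab
  have hu : IsUnit e := .of_mul_eq_one e' (by rw [mul_comm]; exact hee)
  obtain ⟨u, hu0, hue⟩ := Polynomial.isUnit_iff.1 hu
  refine ⟨u, hu0.ne_zero, ?_, ?_⟩
  · rw [hue, h1]
  · rw [hue, h2]

theorem IsRep.pairDeg_eq {P : (W⁄K).Point} {f g f' g' : k[X]} (h : IsRep W ι P f g)
    (h' : IsRep W ι P f' g') : pairDeg f' g' = pairDeg f g := by
  obtain ⟨u, hu, rfl, rfl⟩ := h.unique h'
  rw [pairDeg, pairDeg, natDegree_C_mul hu, natDegree_C_mul hu]

theorem sym2x_of_isRep {P Q : (W⁄K).Point} {f₁ g₁ f₂ g₂ : k[X]} (h₁ : IsRep W ι P f₁ g₁)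
    (h₂ : IsRep W ι Q f₂ g₂) :
    ∃ c : K, c ≠ 0 ∧ P.sym2x Q = c • (polyEmb ι ∘ sym2 f₁ g₁ f₂ g₂) := by
  obtain ⟨-, c₁, hc₁, hx₁⟩ := h₁
  obtain ⟨-, c₂, hc₂, hx₂⟩ := h₂
  refine ⟨c₁ * c₂, mul_ne_zero hc₁ hc₂, ?_⟩
  funext i
  fin_cases i <;> simp [Point.sym2x, hx₁, hx₂, sym2] <;> ring

/-- **The add-sub relation for representatives.** -/
theorem isRep_addSub [(W⁄k).IsElliptic] {P Q : (W⁄K).Point} {f₁ g₁ f₂ g₂ fp gp fm gm : k[X]}
    (h₁ : IsRep W ι P f₁ g₁) (h₂ : IsRep W ι Q f₂ g₂) (hp : IsRep W ι (P + Q) fp gp)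
    (hm : IsRep W ι (P - Q) fm gm) :
    (∃ c : k, c ≠ 0 ∧ ∀ j, sym2 fp gp fm gm j = C c * asEval (W⁄k) (sym2 f₁ g₁ f₂ g₂) j) ∧
      pairDeg fp gp + pairDeg fm gm = 2 * (pairDeg f₁ g₁ + pairDeg f₂ g₂) := by
  obtain ⟨c, hc, hAS⟩ := addSubMap_sym2x (W⁄K) P Q
  obtain ⟨a, ha, hPQ⟩ := sym2x_of_isRep h₁ h₂
  obtain ⟨b, hb, hSD⟩ := sym2x_of_isRep hp hm
  set v := sym2 f₁ g₁ f₂ g₂ with hv
  set w := sym2 fp gp fm gm with hw
  have key : ∀ j, a ^ 2 * polyEmb ι (asEval (W⁄k) v j) = c * (b * polyEmb ι (w j)) := by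
    intro j
    have := congrFun hAS j
    rw [hPQ, eval_addSubMap_polyEmb, hSD] at this
    simpa using this
  have hwP : IsPrim w := isPrim_sym2 hp.1 hm.1
  obtain ⟨i₀, hi₀⟩ : ∃ i, w i ≠ 0 := by
    by_contra hcon
    push Not at hcon
    obtain ⟨d, hd⟩ := (isPrim_iff_exists w).1 hwP
    simp [hcon] at hd
  have hιw : polyEmb ι (w i₀) ≠ 0 := fun h0 =>
    hi₀ (polyEmb_injective ι (by rw [h0, map_zero]))
  have hp0 : asEval (W⁄k) v i₀ ≠ 0 := by
    intro h0
    have := key i₀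
    rw [h0, map_zero, mul_zero] at this
    exact mul_ne_zero hc (mul_ne_zero hb hιw) this.symm
  refine pairDeg_addSub (W⁄k) h₁.1 h₂.1 hp.1 hm.1 (p := asEval (W⁄k) v i₀) (q := w i₀) hp0 hi₀ ?_
  intro j
  apply polyEmb_injective ι
  rw [map_mul, map_mul]
  have h3 : a ^ 2 * (polyEmb ι (asEval (W⁄k) v i₀) * polyEmb ι (w j)) =
      a ^ 2 * (polyEmb ι (w i₀) * polyEmb ι (asEval (W⁄k) v j)) := by
    calc a ^ 2 * (polyEmb ι (asEval (W⁄k) v i₀) * polyEmb ι (w j))
        = (a ^ 2 * polyEmb ι (asEval (W⁄k) v i₀)) * polyEmb ι (w j) := by ring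
      _ = polyEmb ι (w i₀) * (c * (b * polyEmb ι (w j))) := by rw [key i₀]; ring
      _ = a ^ 2 * (polyEmb ι (w i₀) * polyEmb ι (asEval (W⁄k) v j)) := by rw [← key j]; ring
  exact mul_left_cancel₀ (pow_ne_zero 2 ha) h3

end Rep

section OddHeight

open Parallelogram

variable {R : Type*} [CommRing R] {W : WeierstrassCurve R}
  {k K : Type*} [Field k] [Field K] [Algebra R k] [Algebra R K] [Algebra k K]
  [IsScalarTower R k K] [DecidableEq K]
variable (ι : RatFunc k →ₐ[k] K) {σ : K →ₐ[k] K} (hfix : ∀ a : K, σ a = a → a ∈ ι.range)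

/-- The height of an odd point: the degree of its `x`-coordinate as a rational function. -/
noncomputable def hgt (P : oddPoints W σ) : ℤ := (ratDeg (xT ι hfix P) : ℤ)

theorem hgt_nonneg (P : oddPoints W σ) : 0 ≤ hgt ι hfix P := Int.natCast_nonneg _

theorem ratDeg_zero : ratDeg (0 : RatFunc k) = 0 := by
  simp [ratDeg]

theorem hgt_zero : hgt ι hfix (0 : oddPoints W σ) = 0 := by
  rw [hgt, xT_zero, ratDeg_zero]; rfl

theorem isRep_xT {P : oddPoints W σ} (hP : P ≠ 0) :
    IsRep W ι (P : (W⁄K).Point) (xT ι hfix P).num (xT ι hfix P).denom := by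
  obtain ⟨P', hP'⟩ := P
  rcases P' with _ | ⟨x, y, h⟩
  · exact absurd (Subtype.ext rfl) hP
  · exact isRep_some h (map_xT ι hfix (Q := ⟨_, hP'⟩) rfl)

theorem exists_isRep (P : oddPoints W σ) :
    ∃ f g : k[X], IsRep W ι (P : (W⁄K).Point) f g ∧ (pairDeg f g : ℤ) = hgt ι hfix P := by
  by_cases hP : P = 0
  · subst hP
    refine ⟨1, 0, isRep_zero, ?_⟩
    rw [hgt_zero]
    simp [pairDeg]
  · exact ⟨_, _, isRep_xT ι hfix hP, rfl⟩

theorem hgt_eq_of_isRep {P : oddPoints W σ} {f g : k[X]}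
    (h : IsRep W ι (P : (W⁄K).Point) f g) : hgt ι hfix P = (pairDeg f g : ℤ) := by
  obtain ⟨f', g', h', e⟩ := exists_isRep ι hfix P
  rw [← e, h'.pairDeg_eq h]

/-- **Exact parallelogram law** for the height on odd points. -/
theorem hgt_parallelogram [(W⁄k).IsElliptic] (P Q : oddPoints W σ) :
    hgt ι hfix (P + Q) + hgt ι hfix (P - Q) = 2 * hgt ι hfix P + 2 * hgt ι hfix Q := by
  obtain ⟨f₁, g₁, h₁, e₁⟩ := exists_isRep ι hfix P
  obtain ⟨f₂, g₂, h₂, e₂⟩ := exists_isRep ι hfix Q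
  obtain ⟨fp, gp, hp, ep⟩ := exists_isRep ι hfix (P + Q)
  obtain ⟨fm, gm, hm, em⟩ := exists_isRep ι hfix (P - Q)
  rw [AddSubgroup.coe_add] at hp
  rw [AddSubgroup.coe_sub] at hm
  have := (isRep_addSub h₁ h₂ hp hm).2
  rw [← e₁, ← e₂, ← ep, ← em]
  exact_mod_cast (by omega : pairDeg fp gp + pairDeg fm gm = 2 * pairDeg f₁ g₁ + 2 * pairDeg f₂ g₂)

theorem ratDeg_X : ratDeg (RatFunc.X : RatFunc k) = 1 := by
  simp [ratDeg]

/-- a point whose `x`-coordinate is `ι X` has height one. -/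
theorem hgt_generic {Q : oddPoints W σ} {y : K} {h : (W⁄K).Nonsingular (ι RatFunc.X) y}
    (hQ : (Q : (W⁄K).Point) = Point.some _ y h) : hgt ι hfix Q = 1 := by
  rw [hgt, xT_eq_of_some ι hfix hQ rfl, ratDeg_X]; rfl

theorem eq_C_of_ratDeg_eq_zero {r : RatFunc k} (h : ratDeg r = 0) : ∃ c : k, r = RatFunc.C c := by
  have h1 : r.num.natDegree = 0 := by
    have := le_max_left r.num.natDegree r.denom.natDegree
    rw [ratDeg] at h; omega
  have h2 : r.denom.natDegree = 0 := by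
    have := le_max_right r.num.natDegree r.denom.natDegree
    rw [ratDeg] at h; omega
  obtain ⟨a, ha⟩ := natDegree_eq_zero.1 h1
  obtain ⟨b, hb⟩ := natDegree_eq_zero.1 h2
  refine ⟨a / b, ?_⟩
  conv_lhs => rw [← RatFunc.num_div_denom r, ← ha, ← hb]
  rw [RatFunc.algebraMap_C, RatFunc.algebraMap_C, ← map_div₀]

/-- a point of height zero is zero or has constant `x`-coordinate. -/
theorem eq_zero_or_of_hgt_eq_zero {P : oddPoints W σ} (h : hgt ι hfix P = 0) :
    P = 0 ∨ ∃ (c : k) (y : K) (hns : (W⁄K).Nonsingular (algebraMap k K c) y),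
      (P : (W⁄K).Point) = Point.some _ y hns := by
  by_cases hP : P = 0
  · exact Or.inl hP
  · right
    obtain ⟨c, hc⟩ := eq_C_of_ratDeg_eq_zero (r := xT ι hfix P) (by
      rw [hgt] at h; exact_mod_cast h)
    obtain ⟨P', hP'⟩ := P
    rcases P' with _ | ⟨x, y, hns⟩
    · exact absurd (Subtype.ext rfl) hP
    · have hx : ι (xT ι hfix ⟨_, hP'⟩) = x := map_xT ι hfix (Q := ⟨_, hP'⟩) rfl
      rw [hc, ← RatFunc.algebraMap_eq_C, AlgHom.commutes] at hx
      subst hx
      exact ⟨c, y, hns, rfl⟩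

end OddHeight

section FrobHeight

open Parallelogram

variable {l : ℕ} [Fact l.Prime] {W : WeierstrassCurve (ZMod l)}
  {k K : Type*} [Field k] [Field K] [Algebra (ZMod l) k] [Algebra (ZMod l) K] [Algebra k K]
  [IsScalarTower (ZMod l) k K] [DecidableEq K]
variable (ι : RatFunc k →ₐ[k] K) {σ : K →ₐ[k] K} (hfix : ∀ a : K, σ a = a → a ∈ ι.range)

theorem xRep_frobPt (P : (W⁄K).Point) : (frobPt W K P).xRep = fun i => P.xRep i ^ l := by
  have hl : l ≠ 0 := (Fact.out : l.Prime).ne_zero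
  rcases P with _ | ⟨x, y, h⟩
  · show (frobPt W K 0).xRep = fun i => (0 : (W⁄K).Point).xRep i ^ l
    rw [map_zero, Point.xRep_zero]
    funext i; fin_cases i <;> simp [hl]
  · rw [frobPt_some, Point.xRep_some, Point.xRep_some]
    funext i; fin_cases i <;> simp

variable {ι} in
theorem IsRep.frobPt {P : (W⁄K).Point} {f g : k[X]} (h : IsRep W ι P f g) :
    IsRep W ι (frobPt W K P) (f ^ l) (g ^ l) := by
  obtain ⟨hc, c, hc0, hx⟩ := h
  refine ⟨hc.pow, c ^ l, pow_ne_zero _ hc0, ?_⟩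
  rw [xRep_frobPt, hx]
  funext i; fin_cases i <;> simp [mul_pow]

variable (W σ) in
/-- Frobenius on the odd points. -/
noncomputable def frobOdd : oddPoints W σ →+ oddPoints W σ :=
  ((frobPt W K).comp (oddPoints W σ).subtype).codRestrict (oddPoints W σ) fun P =>
    map_mem_oddPoints (S := ZMod l) (FiniteField.frobeniusAlgHom (ZMod l) K)
      (fun a => by rw [frobAlgHom_apply, frobAlgHom_apply, map_pow]) P.2

@[simp] theorem coe_frobOdd (P : oddPoints W σ) :
    ((frobOdd W σ P : oddPoints W σ) : (W⁄K).Point) = frobPt W K P := rfl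

theorem hgt_frobOdd (P : oddPoints W σ) : hgt ι hfix (frobOdd W σ P) = l * hgt ι hfix P := by
  obtain ⟨f, g, h, e⟩ := exists_isRep ι hfix P
  have h' : IsRep W ι ((frobOdd W σ P : oddPoints W σ) : (W⁄K).Point) (f ^ l) (g ^ l) := h.frobPt
  rw [hgt_eq_of_isRep ι hfix h', ← e, pairDeg, pairDeg, natDegree_pow, natDegree_pow,
    Nat.mul_max_mul_left]
  push_cast; ring

end FrobHeight

end Fermat.Agent.Lib.EC.FrobCharEq
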